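import Fermat.Prelude.Def_ModularCurve_ReductionModL
import Fermat.Agent.PlaceRed.Interface
import Fermat.Agent.S18
import Fermat.Prelude.Def_FLTPrelim_Ramification

/-!
Consumed inputs: reduction inputs (R4) and injectivity on prime-to-`ℓ` torsion (R6).
-/

set_option autoImplicit false

noncomputable section

open AlgebraicCurve ModularCurve

namespace FLTA.Congruence

theorem reductionInputs (N : ℕ) [NeZero N] {ℓ : ℕ} (hℓ : ℓ.Prime) (hℓN : ¬ ℓ ∣ N)
    (A : ValuationSubring (AlgebraicClosure ℚ)) (hA : A.LiesOverPrime ℓ) :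
    ReductionInputsModL A N := by
  haveI : Fact ℓ.Prime := ⟨hℓ⟩
  exact FLTA.PlaceRed.reductionInputsModL N hℓN A hA

theorem eq_zero_of_reductionModL_eq_zero (N : ℕ) [NeZero N] {ℓ : ℕ} (hℓ : ℓ.Prime)
    (hℓN : ¬ ℓ ∣ N) (A : ValuationSubring (AlgebraicClosure ℚ)) (hA : A.LiesOverPrime ℓ)
    (m : ℕ) (hm : ¬ ℓ ∣ m) (z : JZero N) (hmz : m • z = 0)
    (hz : reductionModL A N z = 0) : z = 0 := by
  haveI : Fact ℓ.Prime := ⟨hℓ⟩
  exact Fermat.Agent.S18.result N hℓN A hA (reductionInputs N hℓ hℓN A hA) m hm z hmz hz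

end FLTA.Congruence
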