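import Fermat.Agent.Congruence.Frobenius
import Fermat.Agent.Congruence.Inputs

/-!
Inertia and Frobenius on prime-to-`ℓ` torsion of `J₀(N)(ℚ̄)`, `ℓ ∤ N`.
-/

set_option autoImplicit false

noncomputable section

open AlgebraicCurve ModularCurve

namespace FLTA.Congruence

variable {N ℓ m : ℕ} [NeZero N] {A : ValuationSubring (AlgebraicClosure ℚ)}
variable {σ : AlgebraicClosure ℚ ≃ₐ[ℚ] AlgebraicClosure ℚ}

theorem nsmul_smul_eq_zero {x : JZero N} (hx : m • x = 0) : m • (σ • x) = 0 :=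
  ((map_nsmul (DistribSMul.toAddMonoidHom (JZero N) σ) m x).symm.trans
    (congrArg _ hx)).trans (map_zero (DistribSMul.toAddMonoidHom (JZero N) σ))

/-- Inertia at `ℓ ∤ N` is trivial on `m`-torsion for `ℓ ∤ m`. -/
theorem smul_eq_of_mem_inertia (hℓ : ℓ.Prime) (hℓN : ¬ ℓ ∣ N) (hA : A.LiesOverPrime ℓ)
    (hm : ¬ ℓ ∣ m) (hσ : σ ∈ A.inertiaSubgroupIn ℚ) {x : JZero N} (hx : m • x = 0) :
    σ • x = x := by
  refine sub_eq_zero.mp (eq_zero_of_reductionModL_eq_zero N hℓ hℓN A hA m hm _ ?_ ?_)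
  · exact (nsmul_sub (σ • x) x m).trans (by rw [nsmul_smul_eq_zero hx, hx, sub_zero])
  · rw [map_sub, reductionModL_inertia (reductionInputs N hℓ hℓN A hA) hσ, sub_self]

/-- The Eichler-Shimura relation on `m`-torsion for `ℓ ∤ m * N`. -/
theorem frobenius_quadratic_torsion (hℓ : ℓ.Prime) (hℓN : ¬ ℓ ∣ N) (hA : A.LiesOverPrime ℓ)
    (hm : ¬ ℓ ∣ m) (hσ : A.IsFrobeniusAt σ ℓ) {x : JZero N} (hx : m • x = 0) :
    σ • σ • x - heckeOperatorBar N ⟨ℓ, hℓ⟩ (σ • x) + (ℓ : ℤ) • x = 0 := by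
  haveI : Fact ℓ.Prime := ⟨hℓ⟩
  haveI := FLTA.Galois.charP_residueField hℓ hA
  haveI := perfectRing_residueField hℓ hA
  refine eq_zero_of_reductionModL_eq_zero N hℓ hℓN A hA m hm _ ?_
    (reductionModL_frobenius_quadratic hℓN (reductionInputs N hℓ hℓN A hA) hσ x)
  let f : JZero N →+ JZero N :=
    (DistribSMul.toAddMonoidHom (JZero N) σ).comp (DistribSMul.toAddMonoidHom (JZero N) σ) -
      (heckeOperatorBar N ⟨ℓ, hℓ⟩).toAddMonoidHom.comp (DistribSMul.toAddMonoidHom (JZero N) σ) +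
        (ℓ : ℤ) • AddMonoidHom.id (JZero N)
  have hf : f x = σ • σ • x - heckeOperatorBar N ⟨ℓ, hℓ⟩ (σ • x) + (ℓ : ℤ) • x := rfl
  exact (congrArg (fun y => m • y) hf.symm).trans
    (((map_nsmul f m x).symm.trans (congrArg f hx)).trans (map_zero f))

end FLTA.Congruence
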