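import Fermat.Prelude.Def_ModularCurve_X0ModL

/-!
Generic series lemmas for the congruence relation: the substitution `t ↦ u * t ^ n` on
Laurent series and series supported on multiples of `l`.
-/

set_option autoImplicit false

noncomputable section

namespace FLTA.Congruence

open ModularCurve HahnSeries

section Scale

variable {R S : Type*} [CommRing R] [CommRing S]

/-- `t ↦ u * t` on Laurent series. -/
def scaleHom (u : Rˣ) : LaurentSeries R →+* LaurentSeries R where
  toFun x :=
    { coeff := fun k => ((u ^ k : Rˣ) : R) * x.coeff k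
      isPWO_support' := x.isPWO_support.mono fun k hk => by
        simp only [Function.mem_support, ne_eq] at hk ⊢
        intro h
        exact hk (by rw [h, mul_zero]) }
  map_zero' := by ext k; simp
  map_one' := by
    ext k
    rcases eq_or_ne k 0 with rfl | hk
    · simp
    · simp [HahnSeries.coeff_one, hk]
  map_add' x y := by ext k; simp [mul_add]
  map_mul' x y := by
    ext k
    set x' : LaurentSeries R :=
      { coeff := fun k => ((u ^ k : Rˣ) : R) * x.coeff k
        isPWO_support' := x.isPWO_support.mono fun k hk => by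
          simp only [Function.mem_support, ne_eq] at hk ⊢
          intro h
          exact hk (by rw [h, mul_zero]) } with hx'
    set y' : LaurentSeries R :=
      { coeff := fun k => ((u ^ k : Rˣ) : R) * y.coeff k
        isPWO_support' := y.isPWO_support.mono fun k hk => by
          simp only [Function.mem_support, ne_eq] at hk ⊢
          intro h
          exact hk (by rw [h, mul_zero]) } with hy'
    have hxs : x'.support ⊆ x.support := fun k hk => by
      simp only [HahnSeries.mem_support, ne_eq, hx'] at hk ⊢
      intro h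
      exact hk (by rw [h, mul_zero])
    have hys : y'.support ⊆ y.support := fun k hk => by
      simp only [HahnSeries.mem_support, ne_eq, hy'] at hk ⊢
      intro h
      exact hk (by rw [h, mul_zero])
    show ((u ^ k : Rˣ) : R) * (x * y).coeff k = (x' * y').coeff k
    rw [HahnSeries.coeff_mul, HahnSeries.coeff_mul, Finset.mul_sum]
    symm
    refine Finset.sum_subset_zero_on_sdiff ?_ ?_ ?_
    · intro ij hij
      rw [Finset.mem_antidiagonal] at hij ⊢
      exact ⟨hxs hij.1, hys hij.2.1, hij.2.2⟩
    · intro ij hij
      rw [Finset.mem_sdiff, Finset.mem_antidiagonal, Finset.mem_antidiagonal] at hij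
      obtain ⟨⟨-, -, he⟩, hn⟩ := hij
      rw [← he, zpow_add, Units.val_mul]
      have : x'.coeff ij.1 = 0 ∨ y'.coeff ij.2 = 0 := by
        simp only [HahnSeries.mem_support] at hn
        tauto
      rcases this with h | h
      · calc ((u ^ ij.1 : Rˣ) : R) * ((u ^ ij.2 : Rˣ) : R) * (x.coeff ij.1 * y.coeff ij.2)
            = x'.coeff ij.1 * (((u ^ ij.2 : Rˣ) : R) * y.coeff ij.2) := by
              simp only [hx']; ring
          _ = 0 := by rw [h, zero_mul]
      · calc ((u ^ ij.1 : Rˣ) : R) * ((u ^ ij.2 : Rˣ) : R) * (x.coeff ij.1 * y.coeff ij.2)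
            = y'.coeff ij.2 * (((u ^ ij.1 : Rˣ) : R) * x.coeff ij.1) := by
              simp only [hy']; ring
          _ = 0 := by rw [h, zero_mul]
    · intro ij hij
      rw [Finset.mem_antidiagonal] at hij
      rw [← hij.2.2, zpow_add, Units.val_mul]
      simp only [hx', hy']
      ring

@[simp]
theorem scaleHom_coeff (u : Rˣ) (x : LaurentSeries R) (k : ℤ) :
    (scaleHom u x).coeff k = ((u ^ k : Rˣ) : R) * x.coeff k := rfl

theorem coeffMap_scaleHom (f : R →+* S) (u : Rˣ) (x : LaurentSeries R) :
    coeffMap f (scaleHom u x) = scaleHom (Units.map (f : R →* S) u) (coeffMap f x) := by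
  ext k
  simp only [coeffMap_coeff, scaleHom_coeff, map_mul]
  rw [← map_zpow (Units.map (f : R →* S)) u k]
  rfl

theorem scaleHom_one (x : LaurentSeries R) : scaleHom (1 : Rˣ) x = x := by
  ext k
  simp

theorem scaleHom_qExpand (u : Rˣ) (n : ℕ) [NeZero n] (hu : u ^ n = 1) (x : LaurentSeries R) :
    scaleHom u (qExpand R n x) = qExpand R n x := by
  ext k
  rw [scaleHom_coeff]
  by_cases hk : (n : ℤ) ∣ k
  · obtain ⟨m, rfl⟩ := hk
    rw [zpow_mul, zpow_natCast, hu, one_zpow, Units.val_one, one_mul]
  · rw [qExpand_coeff_of_not_dvd n x hk, mul_zero]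

theorem scaleHom_single (u : Rˣ) (k : ℤ) (r : R) :
    scaleHom u (HahnSeries.single k r) = HahnSeries.single k (((u ^ k : Rˣ) : R) * r) := by
  ext m
  rcases eq_or_ne m k with rfl | hm
  · simp
  · simp [HahnSeries.coeff_single_of_ne hm]

theorem scaleHom_scaleHom (u v : Rˣ) (x : LaurentSeries R) :
    scaleHom u (scaleHom v x) = scaleHom (u * v) x := by
  ext k
  simp only [scaleHom_coeff, mul_zpow, Units.val_mul]
  ring

theorem scaleHom_qExpand_eq (u : Rˣ) (n : ℕ) [NeZero n] (x : LaurentSeries R) :
    scaleHom u (qExpand R n x) = qExpand R n (scaleHom (u ^ n) x) := by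
  ext k
  rw [scaleHom_coeff]
  by_cases hk : (n : ℤ) ∣ k
  · obtain ⟨m, rfl⟩ := hk
    rw [qExpand_coeff_mul, qExpand_coeff_mul, scaleHom_coeff, zpow_mul, zpow_natCast]
  · rw [qExpand_coeff_of_not_dvd n x hk, mul_zero, qExpand_coeff_of_not_dvd n _ hk]

/-- The substitution `t ↦ u * t ^ n`. -/
def substHom (n : ℕ) [NeZero n] (u : Rˣ) : LaurentSeries R →+* LaurentSeries R :=
  (qExpand R n).comp (scaleHom u)

theorem substHom_apply (n : ℕ) [NeZero n] (u : Rˣ) (x : LaurentSeries R) :
    substHom n u x = qExpand R n (scaleHom u x) := rfl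

theorem substHom_congr {n m : ℕ} [NeZero n] [NeZero m] {u v : Rˣ} (h : n = m) (hu : u = v)
    (x : LaurentSeries R) : substHom n u x = substHom m v x := by
  subst h; subst hu; rfl

theorem substHom_substHom (n m : ℕ) [NeZero n] [NeZero m] (u v : Rˣ) (x : LaurentSeries R) :
    substHom n u (substHom m v x) = substHom (n * m) (u ^ m * v) x := by
  rw [substHom_apply, substHom_apply, substHom_apply, scaleHom_qExpand_eq, scaleHom_scaleHom,
    qExpand_qExpand]

theorem substHom_one_right (n : ℕ) [NeZero n] (x : LaurentSeries R) :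
    substHom n (1 : Rˣ) x = qExpand R n x := by
  rw [substHom_apply, scaleHom_one]

theorem substHom_one_left (u : Rˣ) (x : LaurentSeries R) :
    substHom 1 u x = scaleHom u x := qExpand_one_apply _

theorem substHom_single_zero (n : ℕ) [NeZero n] (u : Rˣ) (r : R) :
    substHom n u (HahnSeries.single 0 r) = HahnSeries.single 0 r := by
  rw [substHom_apply, scaleHom_single, qExpand_single, zpow_zero, Units.val_one, one_mul,
    mul_zero]

/-- The exponent and the multiplier are determined by the substituted `j` series. -/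
theorem substHom_jqModC_inj [Nontrivial R] {n m : ℕ} [NeZero n] [NeZero m] {u v : Rˣ}
    (h : substHom n u (jqModC R) = substHom m v (jqModC R)) : n = m ∧ u = v := by
  have key : ∀ (a b : ℕ) [NeZero a] [NeZero b] (x y : Rˣ),
      substHom a x (jqModC R) = substHom b y (jqModC R) → b ≤ a := by
    intro a b _ _ x y hab
    by_contra hlt
    have hc := congrArg (fun s : LaurentSeries R => s.coeff (-(b : ℤ))) hab
    simp only [substHom_apply] at hc
    rw [show -(b : ℤ) = (b : ℤ) * (-1) by ring, qExpand_coeff_mul, scaleHom_coeff,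
      coeff_jqModC_neg_one, mul_one] at hc
    have ha : (0 : ℤ) < a := by exact_mod_cast Nat.pos_of_ne_zero (NeZero.ne a)
    have h0 : (qExpand R a (scaleHom x (jqModC R))).coeff ((b : ℤ) * (-1)) = 0 := by
      by_cases hd : (a : ℤ) ∣ (b : ℤ) * (-1)
      · obtain ⟨c, hcc⟩ := hd
        rw [hcc, qExpand_coeff_mul, scaleHom_coeff, coeff_jqModC_of_lt, mul_zero]
        have hab' : (a : ℤ) < b := by omega
        by_contra hcge
        have : (a : ℤ) * (-1) ≤ (a : ℤ) * c := mul_le_mul_of_nonneg_left (by omega) ha.le
        omega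
      · exact qExpand_coeff_of_not_dvd a _ hd
    rw [h0] at hc
    exact (y ^ (-1 : ℤ)).ne_zero hc.symm
  have hnm : n = m := le_antisymm (key m n v u h.symm) (key n m u v h)
  subst hnm
  refine ⟨rfl, ?_⟩
  have hc := congrArg (fun s : LaurentSeries R => s.coeff ((n : ℤ) * (-1))) h
  simp only [substHom_apply, qExpand_coeff_mul, scaleHom_coeff, coeff_jqModC_neg_one, mul_one,
    Units.val_inj, zpow_neg, zpow_one, inv_inj] at hc
  exact hc

end Scale

section Descent

variable {R S : Type*} [CommRing R] [CommRing S]

/-- A series over `R` whose image under an injective coefficient map lies in the range of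
`q ↦ q ^ n` is itself in that range. -/
theorem exists_qExpand_eq {f : R →+* S} (hf : Function.Injective f) (n : ℕ) [NeZero n]
    {x : LaurentSeries R} {g : LaurentSeries S} (h : coeffMap f x = qExpand S n g) :
    ∃ z : LaurentSeries R, qExpand R n z = x ∧ coeffMap f z = g := by
  have hn : (0 : ℤ) < n := by exact_mod_cast Nat.pos_of_ne_zero (NeZero.ne n)
  have hg : ∀ k : ℤ, f (x.coeff ((n : ℤ) * k)) = g.coeff k := fun k => by
    rw [← coeffMap_coeff, h, qExpand_coeff_mul]
  let z : LaurentSeries R :=
    { coeff := fun k => x.coeff ((n : ℤ) * k)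
      isPWO_support' := g.isPWO_support.mono fun k hk => by
        simp only [Function.mem_support, ne_eq] at hk ⊢
        intro h0
        exact hk (hf (by rw [hg, map_zero]; exact h0)) }
  refine ⟨z, ?_, ?_⟩
  · ext k
    by_cases hk : (n : ℤ) ∣ k
    · obtain ⟨m, rfl⟩ := hk
      rw [qExpand_coeff_mul]
    · rw [qExpand_coeff_of_not_dvd n z hk]
      apply hf
      rw [map_zero, ← coeffMap_coeff, h, qExpand_coeff_of_not_dvd n g hk]
  · ext k
    exact hg k

end Descent

end FLTA.Congruence
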