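import Fermat.Prelude.Def_ModularCurve_HeckeOperator
import Fermat.Prelude.Def_ModularCurve_X0ModL
import Fermat.Agent.Congruence.Twist
import Mathlib.FieldTheory.IsAlgClosed.Basic
import Mathlib.RingTheory.RootsOfUnity.AlgebraicallyClosed

/-!
Embeddings of the function field of `Γ₀(N l)` over the one of `Γ₀(N)` into a field containing
Laurent series in `t`, `t ^ l = q`.

Let `σ` be such an embedding.  The images of the generators `j(q ^ (d l))`, `d ∣ N`, are pinned
down by the modular equations: they are `j(u ^ d * t ^ (d e))` for one pair `(e, u)` in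
`{(l * l, 1)} ∪ {(1, ζ) | ζ ^ l = 1}`.  No automorphism of the function field is needed.
-/

set_option autoImplicit false

noncomputable section

namespace FLTA.Congruence

open ModularCurve AlgebraicCurve HahnSeries

/-- Substitution of `a` for the first variable of a two-variable integral polynomial. -/
abbrev specializeFst {R : Type*} [CommRing R] (Φ : Polynomial (Polynomial ℤ)) (a : R) :
    Polynomial R :=
  Φ.map (Polynomial.eval₂RingHom (Int.castRingHom R) a)

theorem map_specializeFst {R S : Type*} [CommRing R] [CommRing S] (Φ : Polynomial (Polynomial ℤ))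
    (f : R →+* S) (a : R) : (specializeFst Φ a).map f = specializeFst Φ (f a) := by
  rw [specializeFst, specializeFst, Polynomial.map_map]
  congr 1
  refine Polynomial.ringHom_ext' (Subsingleton.elim _ _) ?_
  simp

theorem eval_specializeFst_map {R S : Type*} [CommRing R] [CommRing S]
    (Φ : Polynomial (Polynomial ℤ)) (f : R →+* S) (a b : R) :
    (specializeFst Φ (f a)).eval (f b) = f ((specializeFst Φ a).eval b) := by
  rw [← map_specializeFst, Polynomial.eval_map_apply]

/-- `Φ` has the roots of the modular polynomial of prime level `p` over series over `K`. -/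
def HasModPolyRoots (K : Type*) [Field K] (p : ℕ) [NeZero p]
    (Φ : Polynomial (Polynomial ℤ)) : Prop :=
  ∀ ζ : Kˣ, IsPrimitiveRoot ζ p →
    specializeFst Φ (qExpand K p (jqModC K)) =
      (Polynomial.X - Polynomial.C (qExpand K (p * p) (jqModC K))) *
        ∏ i ∈ Finset.range p,
          (Polynomial.X - Polynomial.C (scaleHom (ζ ^ i) (jqModC K)))

/-- Every prime level has a polynomial with the modular roots over `K`. -/
def ModPolyExists (K : Type*) [Field K] : Prop :=
  ∀ p : ℕ, p.Prime → ∀ (_ : NeZero p), ∃ Φ : Polynomial (Polynomial ℤ), HasModPolyRoots K p Φ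

section Roots

variable {K : Type*} [Field K] {p : ℕ} [NeZero p] {Φ : Polynomial (Polynomial ℤ)}

theorem HasModPolyRoots.eval_jqModC (h : HasModPolyRoots K p Φ) {ζ : Kˣ}
    (hζ : IsPrimitiveRoot ζ p) :
    (specializeFst Φ (jqModC K)).eval (qExpand K p (jqModC K)) = 0 := by
  refine qExpand_injective p ?_
  rw [map_zero, ← eval_specializeFst_map, h ζ hζ, qExpand_qExpand]
  simp

theorem HasModPolyRoots.root_cases (h : HasModPolyRoots K p Φ) {ζ : Kˣ}
    (hζ : IsPrimitiveRoot ζ p) {E : Type*} [Field E] (θ : LaurentSeries K →+* E) (x : E)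
    (hx : (specializeFst Φ (θ (qExpand K p (jqModC K)))).eval x = 0) :
    x = θ (qExpand K (p * p) (jqModC K)) ∨
      ∃ i < p, x = θ (scaleHom (ζ ^ i) (jqModC K)) := by
  rw [← map_specializeFst, h ζ hζ] at hx
  simp only [Polynomial.map_mul, Polynomial.map_prod, Polynomial.map_sub, Polynomial.map_X,
    Polynomial.map_C, Polynomial.eval_mul, Polynomial.eval_prod, Polynomial.eval_sub,
    Polynomial.eval_X, Polynomial.eval_C, mul_eq_zero, Finset.prod_eq_zero_iff, sub_eq_zero,
    Finset.mem_range] at hx
  exact hx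

theorem HasModPolyRoots.eval_substHom (h : HasModPolyRoots K p Φ) {ζ : Kˣ}
    (hζ : IsPrimitiveRoot ζ p) (d : ℕ) [NeZero d] :
    (specializeFst Φ (qExpand K d (jqModC K))).eval (qExpand K (d * p) (jqModC K)) = 0 := by
  rw [← qExpand_qExpand p d, eval_specializeFst_map, h.eval_jqModC hζ, map_zero]

end Roots

theorem exists_isPrimitiveRoot_units (K : Type*) [Field K] [IsAlgClosed K] [CharZero K] (p : ℕ)
    [NeZero p] : ∃ ζ : Kˣ, IsPrimitiveRoot ζ p := by
  haveI : NeZero (p : K) := ⟨Nat.cast_ne_zero.mpr (NeZero.ne p)⟩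
  obtain ⟨ζ, hζ⟩ := HasEnoughRootsOfUnity.exists_primitiveRoot K p
  exact ⟨(hζ.isUnit (NeZero.ne p)).unit,
    IsPrimitiveRoot.coe_units_iff.mp (by rw [IsUnit.unit_spec]; exact hζ)⟩

section Generators

variable {L : Type*} [Field L] [Algebra ℚ L]

theorem coeffEmb_qExpand_jq (d : ℕ) [NeZero d] :
    coeffEmb L (qExpand ℚ d jq) = qExpand L d (jqModC L) := by
  rw [coeffEmb, coeffMap_qExpand, ← jqModC_rat, coeffMap_jqModC]

theorem laurentBaseChange_full_eq_adjoin (M : ℕ) :
    laurentBaseChange L (modularFunctionFieldFull M) =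
      IntermediateField.adjoin L (divisorExpansionsC L M) := by
  apply le_antisymm
  · rw [laurentBaseChange, IntermediateField.adjoin_le_iff]
    rintro _ ⟨x, hx, rfl⟩
    induction hx using IntermediateField.adjoin_induction with
    | mem x hx =>
      obtain ⟨d, hd, hdM, rfl⟩ := hx
      haveI := hd
      exact IntermediateField.subset_adjoin _ _ ⟨d, hd, hdM, coeffEmb_qExpand_jq d⟩
    | algebraMap a =>
      rw [algebraMap_apply_eq_single, coeffEmb, coeffMap_single,
        ← algebraMap_laurentSeries_eq_single]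
      exact IntermediateField.algebraMap_mem _ _
    | add x y _ _ hx hy => rw [map_add]; exact add_mem hx hy
    | inv x _ hx => rw [map_inv₀]; exact inv_mem hx
    | mul x y _ _ hx hy => rw [map_mul]; exact mul_mem hx hy
  · rw [IntermediateField.adjoin_le_iff]
    rintro _ ⟨d, hd, hdM, rfl⟩
    haveI := hd
    rw [← coeffEmb_qExpand_jq]
    exact coeffEmb_mem_laurentBaseChange L (jqd_mem_full M hdM)

/-- The generator `j(q ^ d)` of the base-changed function field. -/
def jGenBar (M d : ℕ) [NeZero d] (hd : d ∣ M) :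
    laurentBaseChange L (modularFunctionFieldFull M) :=
  ⟨qExpand L d (jqModC L), by
    rw [← coeffEmb_qExpand_jq]
    exact coeffEmb_mem_laurentBaseChange L (jqd_mem_full M hd)⟩

@[simp]
theorem coe_jGenBar (M d : ℕ) [NeZero d] (hd : d ∣ M) :
    ((jGenBar (L := L) M d hd : laurentBaseChange L (modularFunctionFieldFull M)) :
      LaurentSeries L) = qExpand L d (jqModC L) := rfl

theorem jGenBar_congr (M : ℕ) {d d' : ℕ} [NeZero d] [NeZero d'] (h : d = d') (hd : d ∣ M)
    (hd' : d' ∣ M) : jGenBar (L := L) M d hd = jGenBar M d' hd' := by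
  subst h; rfl

/-- Two ring homomorphisms out of the function field agreeing on constants and on every
`j(q ^ d)` are equal. -/
theorem ringHom_ext_jGenBar {M : ℕ} {E : Type*} [Field E]
    {f g : laurentBaseChange L (modularFunctionFieldFull M) →+* E}
    (hc : ∀ a : L, f (algebraMap L _ a) = g (algebraMap L _ a))
    (hj : ∀ (d : ℕ) (_ : NeZero d) (hd : d ∣ M), f (jGenBar M d hd) = g (jGenBar M d hd)) :
    f = g := by
  have hle : IntermediateField.adjoin L (divisorExpansionsC L M) ≤
      laurentBaseChange L (modularFunctionFieldFull M) :=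
    (laurentBaseChange_full_eq_adjoin M).ge
  have key : ∀ (x : LaurentSeries L) (hx : x ∈ IntermediateField.adjoin L (divisorExpansionsC L M)),
      f ⟨x, hle hx⟩ = g ⟨x, hle hx⟩ := by
    intro x hx
    induction hx using IntermediateField.adjoin_induction with
    | mem x hx =>
      obtain ⟨d, hd, hdM, rfl⟩ := hx
      exact hj d hd hdM
    | algebraMap a => exact hc a
    | add x y hx hy ihx ihy =>
      show f (⟨x, hle hx⟩ + ⟨y, hle hy⟩) = g (⟨x, hle hx⟩ + ⟨y, hle hy⟩)
      rw [map_add, map_add, ihx, ihy]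
    | inv x hx ih =>
      show f ((⟨x, hle hx⟩)⁻¹) = g ((⟨x, hle hx⟩)⁻¹)
      rw [map_inv₀, map_inv₀, ih]
    | mul x y hx hy ihx ihy =>
      show f (⟨x, hle hx⟩ * ⟨y, hle hy⟩) = g (⟨x, hle hx⟩ * ⟨y, hle hy⟩)
      rw [map_mul, map_mul, ihx, ihy]
  refine RingHom.ext fun x => key x ?_
  rw [← laurentBaseChange_full_eq_adjoin]
  exact x.2

end Generators

section Determination

variable {L : Type*} [Field L] [Algebra ℚ L] [IsAlgClosed L]
variable {N l : ℕ} [NeZero N] [NeZero l]
variable {E : Type*} [Field E] (ι : LaurentSeries L →+* E)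

/-- The possible exponents: `1` and `l * l`. -/
theorem image_jGenBar (hl : l.Prime) (hlN : ¬ l ∣ N) (hΦ : ModPolyExists L)
    (σ : laurentBaseChange L (modularFunctionFieldFull (N * l)) →+* E)
    (hσ : ∀ x, σ (heckeAlphaBar L N l x) = ι (qExpand L l (x : LaurentSeries L)))
    (e : ℕ) [NeZero e] (he : e = 1 ∨ e = l * l) (u : Lˣ)
    (h₁ : σ (jGenBar (N * l) l (dvd_mul_left l N)) = ι (substHom e u (jqModC L)))
    : ∀ (d : ℕ) [NeZero d] (hd : d ∣ N),
    σ (jGenBar (N * l) (d * l) (mul_dvd_mul_right hd l)) =
      ι (substHom (d * e) (u ^ d) (jqModC L)) := by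
  intro d
  haveI : CharZero L := charZero_of_injective_algebraMap (algebraMap ℚ L).injective
  obtain ⟨Φl, hΦl⟩ := hΦ l hl inferInstance
  obtain ⟨ζl, hζl⟩ := exists_isPrimitiveRoot_units L l
  induction d using Nat.strong_induction_on with
  | _ d IH =>
  intro _ hd
  by_cases hd1 : d = 1
  · subst hd1
    exact (congrArg σ (jGenBar_congr (L := L) (N * l) (one_mul l) _ (dvd_mul_left l N))).trans
      (h₁.trans (congrArg ι (substHom_congr (one_mul e).symm (pow_one u).symm _)))
  set p := d.minFac with hpdef
  have hp : p.Prime := Nat.minFac_prime hd1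
  haveI : NeZero p := ⟨hp.ne_zero⟩
  set d' := d / p with hd'def
  have hdd : d = d' * p := (Nat.div_mul_cancel d.minFac_dvd).symm
  haveI : NeZero d' := ⟨fun h => NeZero.ne d (by rw [hdd, h, zero_mul])⟩
  have hd'lt : d' < d := Nat.div_lt_self (Nat.pos_of_ne_zero (NeZero.ne d)) hp.one_lt
  have hd'N : d' ∣ N := (Dvd.intro p hdd.symm).trans hd
  have hpl : p ≠ l := fun h => hlN (h ▸ (d.minFac_dvd.trans hd))
  have ih := @IH d' hd'lt inferInstance hd'N
  -- candidates from the equation of level `l` over `j(q ^ d)`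
  set x := σ (jGenBar (N * l) (d * l) (mul_dvd_mul_right hd l)) with hxdef
  have hzero : (specializeFst Φl (jGenBar (L := L) (N * l) d (hd.mul_right l))).eval
      (jGenBar (N * l) (d * l) (mul_dvd_mul_right hd l)) = 0 := by
    apply (laurentBaseChange L (modularFunctionFieldFull (N * l))).toSubfield.subtype.injective
    rw [map_zero, ← eval_specializeFst_map]
    exact hΦl.eval_substHom hζl d
  have hjd : σ (jGenBar (N * l) d (hd.mul_right l)) =
      ι (qExpand L l (qExpand L d (jqModC L))) := by
    rw [← show σ (heckeAlphaBar L N l (jGenBar N d hd)) =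
      ι (qExpand L l (qExpand L d (jqModC L))) from hσ _]
    exact congrArg σ (Subtype.ext rfl)
  have hx1 : (specializeFst Φl ((ι.comp (substHom d (1 : Lˣ))) (qExpand L l (jqModC L)))).eval x
      = 0 := by
    rw [RingHom.comp_apply, substHom_one_right, qExpand_qExpand, qExpand_congr (mul_comm d l),
      ← qExpand_qExpand d l, ← hjd, hxdef, eval_specializeFst_map, hzero, map_zero]
  obtain ⟨f, hf0, w, hf, hxf⟩ : ∃ (f : ℕ) (_ : NeZero f) (w : Lˣ),
      (f = d * (l * l) ∨ f = d) ∧ x = ι (substHom f w (jqModC L)) := by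
    rcases hΦl.root_cases hζl _ x hx1 with h | ⟨i, -, h⟩
    · refine ⟨d * (l * l), inferInstance, 1, Or.inl rfl, ?_⟩
      rw [h, RingHom.comp_apply, substHom_one_right, substHom_one_right, qExpand_qExpand]
    · refine ⟨d, inferInstance, ζl ^ i, Or.inr rfl, ?_⟩
      rw [h, RingHom.comp_apply, substHom_one_right, substHom_apply]
  haveI := hf0
  -- the equation of level `p` over `j(q ^ (d' l))`
  obtain ⟨Φp, hΦp⟩ := hΦ p hp inferInstance
  obtain ⟨ζp, hζp⟩ := exists_isPrimitiveRoot_units L p
  have hzero' : (specializeFst Φp (substHom (d' * e) (u ^ d') (jqModC L))).eval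
      (substHom f w (jqModC L)) = 0 := by
    apply ι.injective
    rw [map_zero, ← eval_specializeFst_map, ← ih, ← hxf, hxdef, eval_specializeFst_map]
    apply (map_eq_zero_iff σ σ.injective).mpr
    apply (laurentBaseChange L (modularFunctionFieldFull (N * l))).toSubfield.subtype.injective
    rw [map_zero, ← eval_specializeFst_map]
    have := hΦp.eval_substHom hζp (d' * l)
    rw [qExpand_congr (show d' * l * p = d * l by rw [hdd]; ring)] at this
    exact this
  obtain ⟨v, hv⟩ : ∃ v : Lˣ, v ^ p = u ^ d' := by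
    obtain ⟨z, hz⟩ := IsAlgClosed.exists_pow_nat_eq ((u ^ d' : Lˣ) : L) hp.pos
    have hz0 : z ≠ 0 := fun h => (u ^ d').ne_zero (by rw [← hz, h, zero_pow hp.ne_zero])
    exact ⟨Units.mk0 z hz0, Units.ext (by rw [Units.val_pow_eq_pow_val, Units.val_mk0, hz])⟩
  have hlift : (specializeFst Φp
      (substHom (d' * e) v (qExpand L p (jqModC L)))).eval
      (qExpand L p (substHom f w (jqModC L))) = 0 := by
    rw [show substHom (d' * e) v (qExpand L p (jqModC L)) =
      qExpand L p (substHom (d' * e) (u ^ d') (jqModC L)) by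
        rw [← substHom_one_right p (jqModC L), substHom_substHom, mul_one, hv,
          ← substHom_one_right p (substHom (d' * e) _ _), substHom_substHom, one_pow, one_mul]
        exact substHom_congr (mul_comm _ _) rfl _,
      eval_specializeFst_map, hzero', map_zero]
  rw [hxf]
  refine congrArg ι ?_
  rcases hΦp.root_cases hζp (substHom (d' * e) v) _ hlift with h | ⟨i, -, h⟩
  · rw [← substHom_one_right p (substHom f w _), substHom_substHom, one_pow, one_mul,
      ← substHom_one_right (p * p) (jqModC L), substHom_substHom, mul_one] at h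
    obtain ⟨hn, hu⟩ := substHom_jqModC_inj h
    refine substHom_congr ?_ ?_ _
    · apply Nat.eq_of_mul_eq_mul_left hp.pos
      rw [hn, hdd]; ring
    · rw [hu, pow_mul, hv, ← pow_mul, ← hdd]
  · exfalso
    rw [← substHom_one_right p (substHom f w _), substHom_substHom,
      ← substHom_one_left (ζp ^ i) (jqModC L), substHom_substHom] at h
    obtain ⟨hn, -⟩ := substHom_jqModC_inj h
    rw [hdd] at hf
    have hdpos : 0 < d' := Nat.pos_of_ne_zero (NeZero.ne d')
    have hpe : p * p = e ∨ p * p * (l * l) = e := by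
      rcases hf with hf | hf
      · right
        apply Nat.eq_of_mul_eq_mul_left hdpos
        rw [hf] at hn
        linear_combination hn
      · left
        apply Nat.eq_of_mul_eq_mul_left hdpos
        rw [hf] at hn
        linear_combination hn
    rcases he with rfl | rfl <;> rcases hpe with h' | h'
    · exact absurd h' (by nlinarith [hp.two_le])
    · exact absurd h' (by nlinarith [hp.two_le, hl.two_le, Nat.mul_pos hl.pos hl.pos])
    · exact hpl (Nat.mul_self_inj.mp h')
    · exact absurd h' (Ne.symm (ne_of_lt (lt_mul_of_one_lt_left (Nat.mul_pos hl.pos hl.pos)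
        (one_lt_mul'' hp.one_lt hp.one_lt))))

end Determination

end FLTA.Congruence
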