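import Fermat.Prelude.Def_ModularCurve_HeckeOperatorTotal
import Fermat.Agent.Congruence.Embeddings
import Fermat.Agent.Igusa.Degree

/-!
Inputs from the modular equation: degree of the degeneracy map at a prime `ℓ ∤ N`, and existence
of the modular polynomials over `ℚ̄`.  (The Atkin-Lehner involution itself is not needed.)
-/

set_option autoImplicit false

noncomputable section

open AlgebraicCurve ModularCurve

namespace FLTA.Congruence

variable (N ℓ : ℕ) [NeZero N] [NeZero ℓ]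

theorem twist_eq_scaleHom {R : Type*} [CommRing R] (u : Rˣ) (x : LaurentSeries R) :
    FLTA.Igusa.twist u x = scaleHom u x := by
  ext k
  rfl

theorem modPolyExists_algebraicClosure : ModPolyExists (AlgebraicClosure ℚ) := by
  intro p hp _
  refine ⟨FLTA.Igusa.modPoly p hp, fun ζ hζ => ?_⟩
  have h := (FLTA.Igusa.isModPoly_modPoly p hp).2.2 (AlgebraicClosure ℚ) ζ hζ
  simp only [FLTA.Igusa.jAt, qExpand_one_apply, twist_eq_scaleHom] at h
  rw [specializeFst]
  refine Eq.trans ?_ h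
  congr 1
  apply Polynomial.ringHom_ext <;> intros <;> simp

theorem dedekindPsi_mul_prime (hℓ : ℓ.Prime) (hℓN : ¬ ℓ ∣ N) :
    dedekindPsi (N * ℓ) = (ℓ + 1) * dedekindPsi N := by
  have hN : N ≠ 0 := NeZero.ne N
  have hcop : N.Coprime ℓ := (hℓ.coprime_iff_not_dvd.mpr hℓN).symm
  have hset : (N * ℓ).divisors.filter Squarefree =
      (N.divisors.filter Squarefree) ∪ (N.divisors.filter Squarefree).image (· * ℓ) := by
    ext d
    simp only [Finset.mem_filter, Finset.mem_union, Finset.mem_image, Nat.mem_divisors]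
    constructor
    · rintro ⟨⟨hd, -⟩, hsq⟩
      by_cases hl : ℓ ∣ d
      · obtain ⟨e, rfl⟩ := hl
        refine Or.inr ⟨e, ⟨⟨Nat.dvd_of_mul_dvd_mul_left hℓ.pos (by rwa [mul_comm N ℓ] at hd),
          hN⟩, hsq.of_mul_right⟩, mul_comm e ℓ⟩
      · exact Or.inl ⟨⟨(hℓ.coprime_iff_not_dvd.mpr hl).symm.dvd_of_dvd_mul_right hd, hN⟩, hsq⟩
    · rintro (⟨⟨hd, -⟩, hsq⟩ | ⟨e, ⟨⟨he, -⟩, hsq⟩, rfl⟩)
      · exact ⟨⟨hd.mul_right ℓ, mul_ne_zero hN hℓ.ne_zero⟩, hsq⟩
      · refine ⟨⟨mul_dvd_mul_right he ℓ, mul_ne_zero hN hℓ.ne_zero⟩, ?_⟩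
        rw [Nat.squarefree_mul (hcop.coprime_dvd_left he)]
        exact ⟨hsq, hℓ.squarefree⟩
  have hdisj : Disjoint (N.divisors.filter Squarefree)
      ((N.divisors.filter Squarefree).image (· * ℓ)) := by
    rw [Finset.disjoint_left]
    intro d hd hd'
    simp only [Finset.mem_filter, Finset.mem_image, Nat.mem_divisors] at hd hd'
    obtain ⟨e, -, rfl⟩ := hd'
    exact hℓN ((dvd_mul_left ℓ e).trans hd.1.1)
  rw [dedekindPsi, hset, Finset.sum_union hdisj,
    Finset.sum_image (fun a _ b _ h => Nat.eq_of_mul_eq_mul_right hℓ.pos h), dedekindPsi,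
    Finset.mul_sum, ← Finset.sum_add_distrib]
  refine Finset.sum_congr rfl fun d hd => ?_
  simp only [Finset.mem_filter, Nat.mem_divisors] at hd
  obtain ⟨e, he⟩ := hd.1.1
  have hd0 : 0 < d := Nat.pos_of_ne_zero fun h => hN (by rw [he, h, zero_mul])
  rw [Nat.mul_div_mul_right _ _ hℓ.pos, he, mul_assoc, Nat.mul_div_cancel_left _ hd0,
    Nat.mul_div_cancel_left _ hd0]
  ring

theorem dedekindPsi_pos : 0 < dedekindPsi N := by
  rw [dedekindPsi]
  refine Finset.sum_pos' (fun _ _ => Nat.zero_le _) ⟨1, ?_, ?_⟩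
  · simp [NeZero.ne N]
  · simpa using Nat.pos_of_ne_zero (NeZero.ne N)

theorem finrank_mul_of_le {K Ω : Type*} [Field K] [Field Ω] [Algebra K Ω]
    {E E' : IntermediateField K Ω} (h : E ≤ E') :
    Module.finrank K E * (letI := (IntermediateField.inclusion h).toRingHom.toAlgebra;
      Module.finrank E E') = Module.finrank K E' := by
  letI := (IntermediateField.inclusion h).toRingHom.toAlgebra
  haveI : IsScalarTower K E E' :=
    IsScalarTower.of_algebraMap_eq fun a => ((IntermediateField.inclusion h).commutes a).symm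
  exact Module.finrank_mul_finrank K E E'

/-- `finrankAlong` of a map given by inclusion, read off from intermediate fields with the same
carriers over a possibly different base. -/
theorem finrankAlong_eq_of_carrier {K K' Ω : Type*} [Field K] [Field K'] [Field Ω] [Algebra K Ω]
    [Algebra K' Ω] {E E' : IntermediateField K Ω} {F F' : IntermediateField K' Ω}
    (hE : ∀ x, x ∈ E ↔ x ∈ F) (hE' : ∀ x, x ∈ E' ↔ x ∈ F') (h : E ≤ E') (φ : F →ₐ[K'] F')
    (hφ : ∀ x, ((φ x : F') : Ω) = (x : Ω)) :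
    finrankAlong K' φ = (letI := (IntermediateField.inclusion h).toRingHom.toAlgebra;
      Module.finrank E E') := by
  letI := (IntermediateField.inclusion h).toRingHom.toAlgebra
  letI := algebraAlong φ
  let e : E ≃+* F :=
    { toFun := fun x => ⟨x.1, (hE x.1).mp x.2⟩
      invFun := fun x => ⟨x.1, (hE x.1).mpr x.2⟩
      left_inv := fun _ => rfl
      right_inv := fun _ => rfl
      map_mul' := fun _ _ => rfl
      map_add' := fun _ _ => rfl }
  let e' : E' ≃+* F' :=
    { toFun := fun x => ⟨x.1, (hE' x.1).mp x.2⟩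
      invFun := fun x => ⟨x.1, (hE' x.1).mpr x.2⟩
      left_inv := fun _ => rfl
      right_inv := fun _ => rfl
      map_mul' := fun _ _ => rfl
      map_add' := fun _ _ => rfl }
  exact (Algebra.finrank_eq_of_equiv_equiv e e' (RingHom.ext fun x => Subtype.ext (hφ (e x)))).symm

theorem finrankAlong_heckeAlphaBar (hℓ : ℓ.Prime) (hℓN : ¬ ℓ ∣ N) :
    finrankAlong (AlgebraicClosure ℚ) (heckeAlphaBar (AlgebraicClosure ℚ) N ℓ) = ℓ + 1 := by
  set Q := AlgebraicClosure ℚ
  have hmem : ∀ (M : ℕ) [NeZero M] (x : LaurentSeries Q),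
      x ∈ FLTA.Igusa.fullOver Q M ↔ x ∈ laurentBaseChange Q (modularFunctionFieldFull M) := by
    intro M _ x
    rw [FLTA.Igusa.mem_fullOver_iff, laurentBaseChange_full_eq_adjoin]
    rfl
  have hle : FLTA.Igusa.fullOver Q N ≤ FLTA.Igusa.fullOver Q (N * ℓ) := fun x hx => by
    rw [hmem] at hx ⊢
    exact (heckeAlphaBar Q N ℓ ⟨x, hx⟩).2
  have h1 : Module.finrank (FLTA.Igusa.jField Q) (FLTA.Igusa.fullOver Q N) = dedekindPsi N :=
    FLTA.Igusa.finrank_fullOver Q N (Nat.cast_ne_zero.mpr (NeZero.ne N))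
  have h2 : Module.finrank (FLTA.Igusa.jField Q) (FLTA.Igusa.fullOver Q (N * ℓ)) =
      dedekindPsi (N * ℓ) :=
    FLTA.Igusa.finrank_fullOver Q (N * ℓ) (Nat.cast_ne_zero.mpr (NeZero.ne _))
  have h3 := finrank_mul_of_le hle
  rw [h1, h2, dedekindPsi_mul_prime N ℓ hℓ hℓN, mul_comm (ℓ + 1)] at h3
  exact (finrankAlong_eq_of_carrier (hmem N) (hmem (N * ℓ)) hle (heckeAlphaBar Q N ℓ)
    (fun x => coe_heckeAlphaBar N ℓ x)).trans (Nat.eq_of_mul_eq_mul_left (dedekindPsi_pos N) h3)

end FLTA.Congruence
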