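import Fermat.Prelude.Def_ModularCurve_X0ModL
import Fermat.Prelude.Def_AlgebraicCurve_BaseChangeGalois
import Mathlib.RingTheory.MvPowerSeries.Expand
import Mathlib.RingTheory.PowerSeries.Expand

/-!
Coefficientwise maps on `modularFunctionFieldFullC`, and the coefficientwise Frobenius as a
semilinear automorphism: `x ^ ℓ = x^Frob (q^ℓ)`.
-/

set_option autoImplicit false

noncomputable section

open HahnSeries IntermediateField AlgebraicCurve ModularCurve

namespace FLTA.Congruence

section CoeffMapField

variable {K K' : Type*} [Field K] [Field K'] (N : ℕ)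

theorem coeffMap_algebraMap_laurent (f : K →+* K') (c : K) :
    coeffMap f (algebraMap K (LaurentSeries K) c) = algebraMap K' (LaurentSeries K') (f c) := by
  rw [algebraMap_laurentSeries_eq_single, algebraMap_laurentSeries_eq_single, coeffMap_single]

theorem coeffMap_mem_fullC (f : K →+* K') {x : LaurentSeries K}
    (hx : x ∈ modularFunctionFieldFullC K N) :
    coeffMap f x ∈ modularFunctionFieldFullC K' N := by
  change x ∈ Subfield.closure
    (Set.range (algebraMap K (LaurentSeries K)) ∪ divisorExpansionsC K N) at hx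
  induction hx using Subfield.closure_induction with
  | mem y hy =>
      rcases hy with ⟨a, rfl⟩ | ⟨d, hne, hdvd, rfl⟩
      · rw [coeffMap_algebraMap_laurent]
        exact (modularFunctionFieldFullC K' N).algebraMap_mem _
      · haveI := hne
        rw [coeffMap_qExpand, coeffMap_jqModC]
        exact jqModCd_mem_full K' N hdvd
  | one => simp
  | add x y _ _ hx hy => simpa using add_mem hx hy
  | neg x _ hx => simpa using neg_mem hx
  | inv x _ hx => simpa using inv_mem hx
  | mul x y _ _ hx hy => simpa using mul_mem hx hy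

/-- A field automorphism acting on coefficients, as a semilinear automorphism of the field of
modular functions over `K`. -/
def coeffSemilinear (e : K ≃+* K) : SemilinearAut K (modularFunctionFieldFullC K N) :=
  ⟨({ toFun := fun x => ⟨coeffMap (e : K →+* K) (x : LaurentSeries K),
        coeffMap_mem_fullC N (e : K →+* K) x.2⟩
      invFun := fun x => ⟨coeffMap (e.symm : K →+* K) (x : LaurentSeries K),
        coeffMap_mem_fullC N (e.symm : K →+* K) x.2⟩
      left_inv := fun x => Subtype.ext (by
        show coeffMap (e.symm : K →+* K) (coeffMap (e : K →+* K) (x : LaurentSeries K)) = x.1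
        rw [coeffMap_coeffMap,
          coeffMap_congr (g := RingHom.id K) (RingHom.ext fun a => e.symm_apply_apply a) x.1,
          coeffMap_id])
      right_inv := fun x => Subtype.ext (by
        show coeffMap (e : K →+* K) (coeffMap (e.symm : K →+* K) (x : LaurentSeries K)) = x.1
        rw [coeffMap_coeffMap,
          coeffMap_congr (g := RingHom.id K) (RingHom.ext fun a => e.apply_symm_apply a) x.1,
          coeffMap_id])
      map_mul' := fun x y => Subtype.ext (map_mul (coeffMap (e : K →+* K)) x.1 y.1)
      map_add' := fun x y => Subtype.ext (map_add (coeffMap (e : K →+* K)) x.1 y.1) }, e),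
    fun a => Subtype.ext (coeffMap_algebraMap_laurent (e : K →+* K) a)⟩

@[simp]
theorem coe_coeffSemilinear_smul (e : K ≃+* K) (x : modularFunctionFieldFullC K N) :
    ((coeffSemilinear N e • x : modularFunctionFieldFullC K N) : LaurentSeries K) =
      coeffMap (e : K →+* K) (x : LaurentSeries K) :=
  rfl

@[simp]
theorem coe_coeffSemilinear_inv_smul (e : K ≃+* K) (x : modularFunctionFieldFullC K N) :
    (((coeffSemilinear N e)⁻¹ • x : modularFunctionFieldFullC K N) : LaurentSeries K) =
      coeffMap (e.symm : K →+* K) (x : LaurentSeries K) :=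
  rfl

end CoeffMapField

section Frobenius

variable {R : Type*} [CommRing R] (ℓ : ℕ) [NeZero ℓ]

theorem qExpand_ofPowerSeries (f : PowerSeries R) :
    qExpand R ℓ (ofPowerSeries ℤ R f) =
      ofPowerSeries ℤ R (PowerSeries.expand ℓ (NeZero.ne ℓ) f) := by
  ext n
  by_cases hd : (ℓ : ℤ) ∣ n
  · obtain ⟨m, rfl⟩ := hd
    rw [qExpand_coeff_mul]
    rcases lt_or_ge m 0 with hm | hm
    · have hl : (0 : ℤ) < ℓ := by exact_mod_cast Nat.pos_of_neZero ℓ
      rw [ofPowerSeries_coeff_of_neg f hm, ofPowerSeries_coeff_of_neg _ (by nlinarith)]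
    · lift m to ℕ using hm
      rw [show (ℓ : ℤ) * (m : ℤ) = ((ℓ * m : ℕ) : ℤ) by push_cast; rfl,
        ofPowerSeries_apply_coeff, ofPowerSeries_apply_coeff, PowerSeries.coeff_expand_mul]
  · rw [qExpand_coeff_of_not_dvd ℓ _ hd]
    rcases lt_or_ge n 0 with hn | hn
    · rw [ofPowerSeries_coeff_of_neg _ hn]
    · lift n to ℕ using hn
      rw [ofPowerSeries_apply_coeff, PowerSeries.coeff_expand_of_not_dvd]
      exact fun h => hd (Int.natCast_dvd_natCast.mpr h)

variable [ExpChar R ℓ]

/-- In characteristic `ℓ`, an `ℓ`-th power is the coefficientwise Frobenius at `q^ℓ`. -/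
theorem qExpand_coeffMap_frobenius (x : LaurentSeries R) :
    qExpand R ℓ (coeffMap (frobenius R ℓ) x) = x ^ ℓ := by
  conv_lhs => rw [← LaurentSeries.single_order_mul_powerSeriesPart x]
  conv_rhs => rw [← LaurentSeries.single_order_mul_powerSeriesPart x]
  rw [map_mul, map_mul, mul_pow, coeffMap_single, qExpand_single, HahnSeries.single_pow,
    coeffMap_ofPowerSeries, qExpand_ofPowerSeries, ← PowerSeries.map_expand]
  have h : (PowerSeries.expand ℓ (NeZero.ne ℓ) x.powerSeriesPart).map (frobenius R ℓ) =
      x.powerSeriesPart ^ ℓ := MvPowerSeries.map_frobenius_expand ℓ (NeZero.ne ℓ)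
  rw [h, map_pow]
  simp

end Frobenius

section FrobAut

variable (K : Type*) [Field K] (ℓ : ℕ) [Fact ℓ.Prime] [CharP K ℓ] [PerfectRing K ℓ] (N : ℕ)

/-- The coefficientwise Frobenius `a ↦ a^ℓ` of the char-`ℓ` field of modular functions. -/
def frobSemilinear : SemilinearAut K (modularFunctionFieldFullC K N) :=
  coeffSemilinear N (frobeniusEquiv K ℓ)

theorem coe_frobSemilinear_smul (x : modularFunctionFieldFullC K N) :
    ((frobSemilinear K ℓ N • x : modularFunctionFieldFullC K N) : LaurentSeries K) =
      coeffMap (frobenius K ℓ) (x : LaurentSeries K) :=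
  rfl

theorem pow_frobSemilinear_inv_smul (x : modularFunctionFieldFullC K N) :
    haveI : NeZero ℓ := ⟨(Fact.out : ℓ.Prime).ne_zero⟩
    ((((frobSemilinear K ℓ N)⁻¹ • x) ^ ℓ : modularFunctionFieldFullC K N) : LaurentSeries K) =
      qExpand K ℓ (x : LaurentSeries K) := by
  haveI : NeZero ℓ := ⟨(Fact.out : ℓ.Prime).ne_zero⟩
  rw [SubmonoidClass.coe_pow, ← qExpand_coeffMap_frobenius ℓ, frobSemilinear,
    coe_coeffSemilinear_inv_smul, coeffMap_coeffMap,
    coeffMap_congr (g := RingHom.id K) (RingHom.ext fun a => (frobeniusEquiv K ℓ).apply_symm_apply a)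
      x.1, coeffMap_id]

end FrobAut

end FLTA.Congruence
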