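import Fermat.Prelude.Def_AlgebraicCurve_DivisorClassGroup
import Mathlib.Algebra.Order.BigOperators.Group.Finset

/-!
A homomorphism on divisors that kills principal divisors and is bounded on points kills every
divisor of degree zero, granted Riemann's inequality.
-/

set_option autoImplicit false

noncomputable section

open AlgebraicCurve

namespace FLTA.Congruence

variable {K F : Type*} [Field K] [Field F] [Algebra K F]

variable (K F) in
/-- Weak Riemann inequality: every divisor of degree at least `c` is equivalent to an effective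
divisor. -/
def HasEffectiveBound : Prop :=
  ∃ c : ℤ, ∀ D : Divisor K F, c ≤ Divisor.degree D →
    ∃ E : Divisor K F, (∀ P, 0 ≤ E P) ∧ D - E ∈ Divisor.principal (K := K) (F := F)

theorem degree_eq_sum (hdeg : ∀ P : Place K F, P.deg = 1) (D : Divisor K F) :
    Divisor.degree D = D.sum fun _ n => n := by
  rw [Divisor.degree, Finsupp.liftAddHom_apply]
  exact Finsupp.sum_congr fun P _ => by simp [hdeg P]

theorem abs_le_mul_degree (hdeg : ∀ P : Place K F, P.deg = 1) (δ : Divisor K F →+ ℤ) {M : ℤ}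
    (hM : ∀ P, |δ (Finsupp.single P 1)| ≤ M) {E : Divisor K F} (hE : ∀ P, 0 ≤ E P) :
    |δ E| ≤ M * Divisor.degree E := by
  have h : δ E = E.sum fun P n => n * δ (Finsupp.single P 1) := by
    conv_lhs => rw [← Finsupp.sum_single E]
    rw [map_finsuppSum]
    refine Finsupp.sum_congr fun P _ => ?_
    rw [← smul_eq_mul, ← map_zsmul, Finsupp.smul_single, smul_eq_mul, mul_one]
  rw [h, degree_eq_sum hdeg, Finsupp.sum, Finsupp.sum, Finset.mul_sum]
  refine (Finset.abs_sum_le_sum_abs _ _).trans (Finset.sum_le_sum fun P _ => ?_)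
  rw [abs_mul, abs_of_nonneg (hE P), mul_comm]
  exact mul_le_mul_of_nonneg_right (hM P) (hE P)

theorem eq_zero_of_bounded [HasPrincipalDivisors K F] (hdeg : ∀ P : Place K F, P.deg = 1)
    (hR : HasEffectiveBound K F) (δ : Divisor K F →+ ℤ) {M : ℤ}
    (hM : ∀ P, |δ (Finsupp.single P 1)| ≤ M)
    (hprin : ∀ D ∈ Divisor.principal (K := K) (F := F), δ D = 0)
    {D : Divisor K F} (hD : Divisor.degree D = 0) : δ D = 0 := by
  classical
  rcases isEmpty_or_nonempty (Place K F) with hem | hne
  · rw [Subsingleton.elim D 0, map_zero]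
  obtain ⟨P₀⟩ := hne
  obtain ⟨c, hc⟩ := hR
  have hdeg0 : ∀ G ∈ Divisor.principal (K := K) (F := F), Divisor.degree G = 0 := by
    rintro G ⟨f, hf, hG⟩
    obtain ⟨G', hG', h0⟩ := HasPrincipalDivisors.exists_divisor (K := K) f hf
    rwa [show G = G' from Finsupp.ext fun v => (hG v).trans (hG' v).symm]
  set B : ℤ := M * c + |δ (Finsupp.single P₀ c)| with hB
  have hbound : ∀ n : ℕ, |(n : ℤ) * δ D| ≤ B := by
    intro n
    set G : Divisor K F := n • D + Finsupp.single P₀ c with hG
    have hGdeg : Divisor.degree G = c := by simp [hG, hD, hdeg P₀]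
    obtain ⟨E, hE, hGE⟩ := hc G hGdeg.ge
    have hEdeg : Divisor.degree E = c := by
      have := hdeg0 _ hGE
      rw [map_sub, hGdeg] at this
      omega
    have hδ : δ E = (n : ℤ) * δ D + δ (Finsupp.single P₀ c) := by
      have := hprin _ hGE
      rw [map_sub, hG, map_add, map_nsmul, nsmul_eq_mul] at this
      omega
    have h1 := abs_le_mul_degree hdeg δ hM hE
    rw [hEdeg, hδ] at h1
    have h2 := abs_add_le ((n : ℤ) * δ D + δ (Finsupp.single P₀ c)) (-δ (Finsupp.single P₀ c))
    rw [abs_neg, add_neg_cancel_right] at h2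
    omega
  by_contra hne
  have h := hbound (B.toNat + 1)
  rw [abs_mul, Nat.abs_cast] at h
  have h1 : (1 : ℤ) ≤ |δ D| := Int.one_le_abs hne
  have h2 : ((B.toNat + 1 : ℕ) : ℤ) ≤ ((B.toNat + 1 : ℕ) : ℤ) * |δ D| :=
    le_mul_of_one_le_right (Int.natCast_nonneg _) h1
  have h3 := h2.trans h
  have h4 := Int.self_le_toNat B
  push_cast at h3
  omega

theorem abs_apply_le_degree (hdeg : ∀ P : Place K F, P.deg = 1) {D : Divisor K F}
    (hD : ∀ P, 0 ≤ D P) (Q : Place K F) : |D Q| ≤ Divisor.degree D := by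
  rw [abs_of_nonneg (hD Q), degree_eq_sum hdeg, Finsupp.sum]
  by_cases hQ : Q ∈ D.support
  · exact Finset.single_le_sum (fun P _ => hD P) hQ
  · rw [Finsupp.notMem_support_iff.mp hQ]
    exact Finset.sum_nonneg fun P _ => hD P

variable {k G : Type*} [Field k] [Field G] [Algebra k G]

/-- Divisor-valued version of `eq_zero_of_bounded`. -/
theorem divisor_eq_zero_of_bounded [HasPrincipalDivisors K F]
    (hdeg : ∀ P : Place K F, P.deg = 1) (hR : HasEffectiveBound K F)
    (δ : Divisor K F →+ Divisor k G) {M : ℤ}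
    (hM : ∀ P Q, |δ (Finsupp.single P 1) Q| ≤ M)
    (hprin : ∀ D ∈ Divisor.principal (K := K) (F := F), δ D = 0)
    {D : Divisor K F} (hD : Divisor.degree D = 0) : δ D = 0 := by
  ext Q
  exact eq_zero_of_bounded hdeg hR ((Finsupp.applyAddHom Q).comp δ) (fun P => hM P Q)
    (fun E hE => by simp [hprin E hE]) hD

end FLTA.Congruence
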