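import Fermat.Prelude.Def_AlgebraicCurve_Correspondence
import Fermat.Agent.Congruence.Bounded

/-!
Elementary properties of divisor correspondences: effective divisors, principal divisors.
-/

set_option autoImplicit false

noncomputable section

open AlgebraicCurve

namespace FLTA.Congruence

variable {K F F' : Type*} [Field K] [Field F] [Field F'] [Algebra K F] [Algebra K F']
variable [HasPrincipalDivisors K F']
variable (φ ψ : F →ₐ[K] F') (hφ : φ.toRingHom.IsIntegral) (hψ : ψ.toRingHom.IsIntegral)

theorem correspondence_principal_apply (hfin : FiniteAlong K ψ) (hN : NormFormulaAlong K ψ hfin)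
    {f : F} (hf : f ≠ 0) {D : Divisor K F} (hD : ∀ v, D v = v.ord f) (v : Place K F) :
    Divisor.correspondence φ ψ hφ hψ D v =
      v.ord (letI := algebraAlong ψ; Algebra.norm F (φ f)) := by
  have hpull : ∀ w : Place K F', Divisor.pullbackAlong φ hφ D w = w.ord (φ f) := fun w => by
    rw [Divisor.pullbackAlong_apply, hD, Place.ord_restrictAlong φ hφ w f]
  have hφf : φ f ≠ 0 := fun h => hf (φ.toRingHom.injective (h.trans (map_zero φ).symm))
  exact hN (φ f) hφf _ hpull v

theorem correspondence_nonneg {D : Divisor K F} (hD : ∀ v, 0 ≤ D v) (v : Place K F) :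
    0 ≤ Divisor.correspondence φ ψ hφ hψ D v := by
  classical
  rw [Divisor.correspondence_apply]
  have hE : ∀ w, 0 ≤ Divisor.pullbackAlong φ hφ D w := fun w => by
    rw [Divisor.pullbackAlong_apply]
    exact mul_nonneg (Int.natCast_nonneg _) (hD _)
  rw [← Finsupp.sum_single (Divisor.pullbackAlong φ hφ D), map_finsuppSum, Finsupp.sum_apply]
  refine Finset.sum_nonneg fun w _ => ?_
  show (0 : ℤ) ≤ Divisor.pushforwardAlong ψ hψ (Finsupp.single w (Divisor.pullbackAlong φ hφ D w)) v
  rw [Divisor.pushforwardAlong_single, Finsupp.single_apply]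
  split_ifs
  · exact mul_nonneg (hE w) (Int.natCast_nonneg _)
  · exact le_rfl

variable {k G : Type*} [Field k] [Field G] [Algebra k G]

/-- The image of an effective divisor under a map of places has small coefficients. -/
theorem abs_mapDomain_le_degree (hdeg : ∀ P : Place K F, P.deg = 1) (r : Place K F → Place k G)
    {E : Divisor K F} (hE : ∀ P, 0 ≤ E P) (Q : Place k G) :
    |Finsupp.mapDomain r E Q| ≤ Divisor.degree E := by
  classical
  have h := abs_le_mul_degree hdeg
    ((Finsupp.applyAddHom Q).comp (Finsupp.mapDomain.addMonoidHom r)) (M := 1)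
    (fun P => by
      show |Finsupp.mapDomain r (Finsupp.single P (1 : ℤ)) Q| ≤ 1
      rw [Finsupp.mapDomain_single, Finsupp.single_apply]
      split_ifs <;> norm_num) hE
  rwa [one_mul] at h

theorem ord_pow_mul (v : Place k G) {a b : G} (ha : a ≠ 0) (hb : b ≠ 0) (n : ℕ) :
    v.ord (a ^ n * b) = n * v.ord a + v.ord b := by
  rw [v.ord_mul (pow_ne_zero n ha) hb, ← zpow_natCast, v.ord_zpow]

/-- The divisor of `g • f` for a semilinear automorphism `g`. -/
theorem smul_divisor_apply (g : SemilinearAut k G) {D : Divisor k G} {f : G}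
    (hD : ∀ v, D v = v.ord f) (v : Place k G) : (g • D) v = v.ord (g • f) := by
  rw [SemilinearAut.divisor_smul_apply, hD, ← SemilinearAut.ord_smul g (g⁻¹ • v), smul_inv_smul]

end FLTA.Congruence
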