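import Fermat.Agent.Congruence.Main
import Fermat.Agent.Curves.BasicModular
import Fermat.Agent.Curves.RRInstances
import Fermat.Agent.Curves.RRGenus
import Fermat.Agent.Galois.Places

/-!
`reductionModL` on inertia and Frobenius elements, and the Frobenius quadratic relation after
reduction.
-/

set_option autoImplicit false

noncomputable section

open AlgebraicCurve ModularCurve

namespace FLTA.Congruence

local notation "Qb" => AlgebraicClosure ℚ

theorem hasEffectiveBound_of_curve {K F : Type*} [Field K] [Field F] [Algebra K F] [IsAlgClosed K]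
    [IsCurveOver K F] [FLTA.Curves.IsFunctionField K F] : HasEffectiveBound K F := by
  refine ⟨genusFF K F, fun D hD => ?_⟩
  have h := FLTA.Curves.riemann_inequality (K := K) (F := F) D
  have hne : riemannRochSpace D ≠ ⊥ := fun hbot => by
    unfold FLTA.Curves.ell at h
    rw [hbot, finrank_bot] at h
    omega
  obtain ⟨f, hf, hf0⟩ := Submodule.exists_mem_ne_zero_of_ne_bot hne
  refine ⟨D + FLTA.Curves.divFn f, fun P => ?_, ?_⟩
  · have h' := (FLTA.Curves.mem_riemannRochSpace_iff_add_nonneg hf0).mp hf P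
    rw [add_comm D]
    exact h'
  · refine ⟨f⁻¹, inv_ne_zero hf0, fun P => ?_⟩
    rw [Finsupp.sub_apply, Finsupp.add_apply, FLTA.Curves.divFn_apply, Place.ord_inv]
    ring

variable {N ℓ : ℕ} [NeZero N] {A : ValuationSubring (AlgebraicClosure ℚ)}

set_option synthInstance.maxHeartbeats 400000
set_option maxHeartbeats 2000000

theorem deg_eq_one_modularFunctionFieldBar (P : Place Qb (modularFunctionFieldBar N)) :
    P.deg = 1 :=
  IsCurveOver.deg_eq_one_of_isAlgClosed P

theorem hasEffectiveBound_modularFunctionFieldBar :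
    HasEffectiveBound Qb (modularFunctionFieldBar N) :=
  hasEffectiveBound_of_curve

theorem perfectRing_residueField (hℓ : ℓ.Prime) (hA : A.LiesOverPrime ℓ) :
    haveI := FLTA.Galois.charP_residueField hℓ hA
    haveI : Fact ℓ.Prime := ⟨hℓ⟩
    PerfectRing (IsLocalRing.ResidueField A) ℓ := by
  haveI := FLTA.Galois.charP_residueField hℓ hA
  haveI : Fact ℓ.Prime := ⟨hℓ⟩
  haveI := FLTA.Galois.isAlgClosed_residueField A
  infer_instance

/-- An inertia element fixes every class after reduction. -/
theorem reductionModL_inertia (h : ReductionInputsModL A N) {σ : Qb ≃ₐ[ℚ] Qb}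
    (hσ : σ ∈ A.inertiaSubgroupIn ℚ) (x : JZero N) :
    reductionModL A N (σ • x) = reductionModL A N x := by
  obtain ⟨hd, hi⟩ := FLTA.Galois.mem_inertiaSubgroupIn_iff.mp hσ
  rw [reductionModL_galois deg_eq_one_modularFunctionFieldBar
      hasEffectiveBound_modularFunctionFieldBar h
      (fun a => FLTA.Galois.apply_mem_of_mem_decompositionSubgroup hd a.2) (RingEquiv.refl _)
      (fun a => ?_) x, coeffSemilinear_refl, one_smul]
  exact ((FLTA.Galois.residue_eq_iff_sub_mem_nonunits _ _).mpr (hi a a.2)).symm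

variable [Fact ℓ.Prime] [CharP (IsLocalRing.ResidueField A) ℓ]
  [PerfectRing (IsLocalRing.ResidueField A) ℓ]

/-- A Frobenius element reduces to the coefficientwise Frobenius. -/
theorem reductionModL_frobenius (h : ReductionInputsModL A N) {σ : Qb ≃ₐ[ℚ] Qb}
    (hσ : A.IsFrobeniusAt σ ℓ) (x : JZero N) :
    reductionModL A N (σ • x) =
      frobSemilinear (IsLocalRing.ResidueField A) ℓ N • reductionModL A N x := by
  obtain ⟨hd, hf⟩ := FLTA.Galois.isFrobeniusAt_iff.mp hσ
  refine reductionModL_galois deg_eq_one_modularFunctionFieldBar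
    hasEffectiveBound_modularFunctionFieldBar h
    (fun a => FLTA.Galois.apply_mem_of_mem_decompositionSubgroup hd a.2) _ (fun a => ?_) x
  rw [frobeniusEquiv_def, ← map_pow]
  refine ((FLTA.Galois.residue_eq_iff_sub_mem_nonunits _ _).mpr ?_).symm
  rw [SubmonoidClass.coe_pow]
  exact hf a a.2

/-- The congruence for the operator of the Prelude. -/
theorem reductionModL_heckeOperatorBar (hℓN : ¬ ℓ ∣ N) (h : ReductionInputsModL A N)
    (x : JZero N) :
    reductionModL A N (heckeOperatorBar N ⟨ℓ, Fact.out⟩ x) =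
      frobSemilinear (IsLocalRing.ResidueField A) ℓ N • reductionModL A N x +
        ℓ • ((frobSemilinear (IsLocalRing.ResidueField A) ℓ N)⁻¹ • reductionModL A N x) := by
  haveI : NeZero ℓ := ⟨(Fact.out : ℓ.Prime).ne_zero⟩
  refine (congrArg _ (heckeOperatorBar_apply N ⟨ℓ, Fact.out⟩ x)).trans ?_
  exact reductionModL_heckeOperatorAlong hℓN h deg_eq_one_modularFunctionFieldBar
    hasEffectiveBound_modularFunctionFieldBar (FLTA.Curves.heckeInputsAlong N Qb ℓ) x

/-- `σ² x - T_ℓ σ x + ℓ x` dies under reduction for a Frobenius `σ`. -/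
theorem reductionModL_frobenius_quadratic (hℓN : ¬ ℓ ∣ N) (h : ReductionInputsModL A N)
    {σ : Qb ≃ₐ[ℚ] Qb} (hσ : A.IsFrobeniusAt σ ℓ) (x : JZero N) :
    reductionModL A N (σ • σ • x - heckeOperatorBar N ⟨ℓ, Fact.out⟩ (σ • x) + (ℓ : ℤ) • x) = 0 := by
  rw [map_add, map_sub, map_zsmul, reductionModL_heckeOperatorBar hℓN h,
    reductionModL_frobenius h hσ, reductionModL_frobenius h hσ, inv_smul_smul, natCast_zsmul]
  abel

end FLTA.Congruence
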