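import Fermat.Prelude.Def_ModularCurve_ReductionModL
import Fermat.Agent.Congruence.Bounded
import Fermat.Agent.Congruence.FrobeniusField

/-!
Reduction of places commutes with the decomposition group: only `IsPlaceReductionModL`,
`PrincipalGeneratedByIntegral` and the weak Riemann inequality are used.
-/

set_option autoImplicit false

noncomputable section

open AlgebraicCurve ModularCurve

namespace FLTA.Congruence

section Principal

variable {K F : Type*} [Field K] [Field F] [Algebra K F]

theorem eq_zero_on_closure {H : Type*} [AddGroup H] (δ : Divisor K F →+ H)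
    {S : Set (Divisor K F)}
    (hS : ∀ D ∈ S, δ D = 0) {D : Divisor K F} (hD : D ∈ AddSubgroup.closure S) : δ D = 0 :=
  (AddSubgroup.closure_le δ.ker).mpr hS hD

theorem abs_single_sub_single_le {α : Type*} (a b c : α) :
    |((Finsupp.single a (1 : ℤ) - Finsupp.single b 1) : α →₀ ℤ) c| ≤ 2 := by
  classical
  rw [Finsupp.sub_apply, Finsupp.single_apply, Finsupp.single_apply]
  split_ifs <;> norm_num

end Principal

variable {N : ℕ} {A : ValuationSubring (AlgebraicClosure ℚ)}

local notation "Qb" => AlgebraicClosure ℚ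
local notation "k" => IsLocalRing.ResidueField A

set_option synthInstance.maxHeartbeats 400000
set_option maxHeartbeats 2000000

theorem mapDomain_galois_of_mem_integralPrincipalDivisors
    {r : Place Qb (modularFunctionFieldBar N) → Place k (modularFunctionFieldFullC k N)}
    (hr : IsPlaceReductionModL A N r) {σ : Qb ≃ₐ[ℚ] Qb} (hσ : ∀ a : A, σ a ∈ A)
    (e : k ≃+* k)
    (he : ∀ a : A, e (IsLocalRing.residue A a) = IsLocalRing.residue A ⟨σ a, hσ a⟩)
    {D : Divisor Qb (modularFunctionFieldBar N)}
    (hD : D ∈ integralPrincipalDivisors A (IsLocalRing.residue A) N) :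
    Finsupp.mapDomain r (arithmeticGalois (modularFunctionFieldFull N) σ • D) =
      coeffSemilinear N e • Finsupp.mapDomain r D := by
  obtain ⟨y, hy, hyk, hne, hDy⟩ := hD
  set g := arithmeticGalois (modularFunctionFieldFull N) σ with hg
  let σA : A →+* A := ((σ : Qb →+* Qb).comp A.subtype).codRestrict A.toSubring hσ
  have h1 : coeffMap A.subtype (coeffMap σA y) = coeffMap (σ : Qb →+* Qb) (coeffMap A.subtype y) := by
    rw [coeffMap_coeffMap, coeffMap_coeffMap]
    rfl
  have h2 : coeffMap (IsLocalRing.residue A) (coeffMap σA y) =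
      coeffMap (e : k →+* k) (coeffMap (IsLocalRing.residue A) y) := by
    rw [coeffMap_coeffMap, coeffMap_coeffMap]
    exact coeffMap_congr (RingHom.ext fun a => (he a).symm) y
  have hy' : coeffMap A.subtype (coeffMap σA y) ∈ modularFunctionFieldBar N :=
    h1 ▸ coeffMap_mem_laurentBaseChange σ hy
  have hyk' : coeffMap (IsLocalRing.residue A) (coeffMap σA y) ∈ modularFunctionFieldFullC k N :=
    h2 ▸ coeffMap_mem_fullC N (e : k →+* k) hyk
  have hne' : coeffMap (IsLocalRing.residue A) (coeffMap σA y) ≠ 0 := by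
    rw [h2]
    intro h
    refine hne (HahnSeries.ext (funext fun n => ?_))
    have := congrArg (fun s => HahnSeries.coeff s n) h
    simpa using this
  have hf : (⟨_, hy'⟩ : modularFunctionFieldBar N) = g • ⟨_, hy⟩ :=
    Subtype.ext (h1.trans (coe_arithmeticGalois_smul _ σ ⟨_, hy⟩).symm)
  have hfk : (⟨_, hyk'⟩ : modularFunctionFieldFullC k N) = coeffSemilinear N e • ⟨_, hyk⟩ :=
    Subtype.ext (h2.trans (coe_coeffSemilinear_smul N e ⟨_, hyk⟩).symm)
  have hD' : ∀ P, (g • D) P = P.ord (⟨_, hy'⟩ : modularFunctionFieldBar N) := fun P => by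
    rw [hf, SemilinearAut.divisor_smul_apply, hDy,
      ← SemilinearAut.ord_smul g (g⁻¹ • P), smul_inv_smul]
  ext Q
  rw [hr.2 _ hy' hyk' hne' _ hD' Q, hfk, SemilinearAut.divisor_smul_apply,
    hr.2 y hy hyk hne D hDy, ← SemilinearAut.ord_smul (coeffSemilinear N e)
      ((coeffSemilinear N e)⁻¹ • Q), smul_inv_smul]

/-- On divisors of degree zero the reduction of places commutes with `σ`. -/
theorem mapDomain_galois [HasPrincipalDivisors Qb (modularFunctionFieldBar N)]
    (hdeg : ∀ P : Place Qb (modularFunctionFieldBar N), P.deg = 1)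
    (hR : HasEffectiveBound Qb (modularFunctionFieldBar N))
    {r : Place Qb (modularFunctionFieldBar N) → Place k (modularFunctionFieldFullC k N)}
    (hr : IsPlaceReductionModL A N r)
    (hgen : PrincipalGeneratedByIntegral A (IsLocalRing.residue A) N)
    {σ : Qb ≃ₐ[ℚ] Qb} (hσ : ∀ a : A, σ a ∈ A) (e : k ≃+* k)
    (he : ∀ a : A, e (IsLocalRing.residue A a) = IsLocalRing.residue A ⟨σ a, hσ a⟩)
    {D : Divisor Qb (modularFunctionFieldBar N)} (hD : Divisor.degree D = 0) :
    Finsupp.mapDomain r (arithmeticGalois (modularFunctionFieldFull N) σ • D) =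
      coeffSemilinear N e • Finsupp.mapDomain r D := by
  let δ : Divisor Qb (modularFunctionFieldBar N) →+ Divisor k (modularFunctionFieldFullC k N) :=
    (Finsupp.mapDomain.addMonoidHom r).comp
        (DistribSMul.toAddMonoidHom _ (arithmeticGalois (modularFunctionFieldFull N) σ)) -
      (DistribSMul.toAddMonoidHom _ (coeffSemilinear N e)).comp
        (Finsupp.mapDomain.addMonoidHom r)
  have hδ : ∀ E, δ E =
      Finsupp.mapDomain r (arithmeticGalois (modularFunctionFieldFull N) σ • E) -
        coeffSemilinear N e • Finsupp.mapDomain r E := fun _ => rfl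
  rw [← sub_eq_zero, ← hδ]
  refine divisor_eq_zero_of_bounded hdeg hR δ (M := 2) (fun P Q => ?_) (fun E hE => ?_) hD
  · rw [hδ, SemilinearAut.smul_single, Finsupp.mapDomain_single, Finsupp.mapDomain_single,
      SemilinearAut.smul_single]
    exact abs_single_sub_single_le _ _ _
  · refine eq_zero_on_closure δ (fun E hE => ?_) (hgen hE)
    rw [hδ, mapDomain_galois_of_mem_integralPrincipalDivisors hr hσ e he hE, sub_self]

/-- `reductionModL` commutes with every element of the decomposition group. -/
theorem reductionModL_galois [NeZero N] [HasPrincipalDivisors Qb (modularFunctionFieldBar N)]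
    (hdeg : ∀ P : Place Qb (modularFunctionFieldBar N), P.deg = 1)
    (hR : HasEffectiveBound Qb (modularFunctionFieldBar N)) (h : ReductionInputsModL A N)
    {σ : Qb ≃ₐ[ℚ] Qb} (hσ : ∀ a : A, σ a ∈ A) (e : k ≃+* k)
    (he : ∀ a : A, e (IsLocalRing.residue A a) = IsLocalRing.residue A ⟨σ a, hσ a⟩)
    (x : JZero N) :
    reductionModL A N (σ • x) = coeffSemilinear N e • reductionModL A N x := by
  obtain ⟨D, rfl⟩ := Pic0.mk_surjective x
  rw [galois_smul_pic0_def, SemilinearAut.pic0_smul_mk, reductionModL_mk h, reductionModL_mk h,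
    SemilinearAut.pic0_smul_mk]
  refine congrArg Pic0.mk (Subtype.ext ?_)
  rw [coe_reductionDegZeroAlong, SemilinearAut.coe_degZeroSMulHom,
    SemilinearAut.coe_degZeroSMulHom, coe_reductionDegZeroAlong]
  exact mapDomain_galois hdeg hR (isPlaceReductionModL_placeReductionModL h) h.choose_spec.2
    hσ e he D.2

/-- An inertia element acts trivially after reduction. -/
theorem coeffSemilinear_refl : coeffSemilinear N (RingEquiv.refl k) = 1 := by
  refine Subtype.ext (Prod.ext (RingEquiv.ext fun x => Subtype.ext ?_) rfl)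
  exact coeffMap_id (x : LaurentSeries k)

end FLTA.Congruence
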