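import Fermat.Prelude.Def_ModularCurve_X0ModL
import Fermat.Prelude.Def_ModularCurve_HeckeOperatorTotal
import Fermat.Agent.Congruence.AtkinLehner
import Fermat.Agent.Congruence.Embeddings
import Fermat.Agent.Congruence.FrobeniusField
import Mathlib.RingTheory.Norm.Transitivity

/-!
The norm along `α` of `β f` has integral expansion congruent to `fbar(q^ℓ) * fbar^Frob(q)`.

With `t ^ ℓ = q` its expansion is `f(t^(ℓ*ℓ)) * ∏_b f(ζ^b t)`: product over the `ℓ + 1`
embeddings of the field of level `N * ℓ` over the one of level `N` (`Embeddings.lean`).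
-/

set_option autoImplicit false

noncomputable section

open AlgebraicCurve ModularCurve

namespace FLTA.Congruence

/-- The norm of `f(q^ℓ)` from level `N * ℓ` down to level `N`, as a function. -/
def heckeNorm (L : Type*) [Field L] [Algebra ℚ L] (N ℓ : ℕ) [NeZero N] [NeZero ℓ]
    (f : laurentBaseChange L (modularFunctionFieldFull N)) :
    laurentBaseChange L (modularFunctionFieldFull N) :=
  letI := algebraAlong (heckeAlphaBar L N ℓ)
  Algebra.norm (laurentBaseChange L (modularFunctionFieldFull N)) (heckeBetaBar L N ℓ f)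

section Conjugates

variable {L : Type*} [Field L] [Algebra ℚ L]
variable (l : ℕ) [NeZero l]

/-- The substitutions giving the conjugates of `f(q ^ l)`: `t ↦ t^(l*l)` and `t ↦ ζ^i t`. -/
def conjSubst (ζ : Lˣ) : Option (Fin l) → (LaurentSeries L →+* LaurentSeries L)
  | none => qExpand L (l * l)
  | some i => scaleHom (ζ ^ (i : ℕ))

theorem conjSubst_algebraMap (ζ : Lˣ) (c : Option (Fin l)) (a : L) :
    conjSubst l ζ c (algebraMap L (LaurentSeries L) a) = algebraMap L (LaurentSeries L) a := by
  cases c <;>
    simp [conjSubst, algebraMap_laurentSeries_eq_single, scaleHom_single]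

theorem exists_conjSubst_of_root [IsAlgClosed L] (N : ℕ) [NeZero N] (hl : l.Prime)
    (hlN : ¬ l ∣ N) (hΦ : ModPolyExists L) {ζ : Lˣ} (hζ : IsPrimitiveRoot ζ l) {E : Type*}
    [Field E] (ι : LaurentSeries L →+* E)
    (σ : laurentBaseChange L (modularFunctionFieldFull (N * l)) →+* E)
    (hσ : ∀ x, σ (heckeAlphaBar L N l x) = ι (qExpand L l (x : LaurentSeries L))) :
    ∃ c : Option (Fin l), ∀ f : laurentBaseChange L (modularFunctionFieldFull N),
      σ (heckeBetaBar L N l f) = ι (conjSubst l ζ c (f : LaurentSeries L)) := by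
  obtain ⟨Φ, hΦl⟩ := hΦ l hl inferInstance
  have hzero : (specializeFst Φ (jGenBar (L := L) (N * l) 1 (one_dvd _))).eval
      (jGenBar (N * l) l (dvd_mul_left l N)) = 0 := by
    apply (laurentBaseChange L (modularFunctionFieldFull (N * l))).toSubfield.subtype.injective
    rw [map_zero, ← eval_specializeFst_map]
    have := hΦl.eval_substHom hζ 1
    rw [qExpand_congr (one_mul l)] at this
    exact this
  have hj1 : σ (jGenBar (N * l) 1 (one_dvd _)) = ι (qExpand L l (jqModC L)) := by
    rw [← qExpand_one_apply (jqModC L),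
      ← show σ (heckeAlphaBar L N l (jGenBar N 1 (one_dvd _))) =
        ι (qExpand L l (qExpand L 1 (jqModC L))) from hσ _]
    exact congrArg σ (Subtype.ext rfl)
  have hx : (specializeFst Φ (ι (qExpand L l (jqModC L)))).eval
      (σ (jGenBar (N * l) l (dvd_mul_left l N))) = 0 := by
    rw [← hj1, eval_specializeFst_map, hzero, map_zero]
  -- agreement on constants
  have hconst : ∀ a : L, σ (heckeBetaBar L N l (algebraMap L _ a)) =
      ι (algebraMap L (LaurentSeries L) a) := fun a => by
    rw [(heckeBetaBar L N l).commutes, ← (heckeAlphaBar L N l).commutes, hσ]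
    refine congrArg ι ?_
    show qExpand L l (algebraMap L (LaurentSeries L) a) = algebraMap L (LaurentSeries L) a
    rw [algebraMap_laurentSeries_eq_single, qExpand_single, mul_zero]
  have hgen : ∀ (d : ℕ) (_ : NeZero d) (hd : d ∣ N),
      σ (heckeBetaBar L N l (jGenBar N d hd)) =
        σ (jGenBar (N * l) (d * l) (mul_dvd_mul_right hd l)) := fun d _ hd => by
    refine congrArg σ (Subtype.ext ?_)
    show qExpand L l (qExpand L d (jqModC L)) = qExpand L (d * l) (jqModC L)
    rw [qExpand_qExpand]
    exact qExpand_congr (mul_comm l d) _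
  obtain ⟨c, e, he0, u, he, heq, hsub⟩ : ∃ (c : Option (Fin l)) (e : ℕ) (_ : NeZero e) (u : Lˣ),
      (e = 1 ∨ e = l * l) ∧
      σ (jGenBar (N * l) l (dvd_mul_left l N)) = ι (substHom e u (jqModC L)) ∧
      ∀ z, conjSubst l ζ c z = substHom e u z := by
    rcases hΦl.root_cases hζ ι _ hx with h | ⟨i, hi, h⟩
    · exact ⟨none, l * l, inferInstance, 1, Or.inr rfl, by rw [h, substHom_one_right],
        fun z => (substHom_one_right _ z).symm⟩
    · exact ⟨some ⟨i, hi⟩, 1, inferInstance, ζ ^ i, Or.inl rfl, by rw [h, substHom_one_left],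
        fun z => (substHom_one_left _ z).symm⟩
  haveI := he0
  refine ⟨c, fun f => ?_⟩
  have key : σ.comp (heckeBetaBar L N l).toRingHom =
      (ι.comp (conjSubst l ζ c)).comp
        (laurentBaseChange L (modularFunctionFieldFull N)).toSubfield.subtype := by
    refine ringHom_ext_jGenBar (fun a => ?_) (fun d hd0 hd => ?_)
    · exact (hconst a).trans (congrArg ι (conjSubst_algebraMap l ζ c a).symm)
    · show σ (heckeBetaBar L N l (jGenBar N d hd)) =
        ι (conjSubst l ζ c (qExpand L d (jqModC L)))
      rw [hgen d hd0 hd, image_jGenBar ι hl hlN hΦ σ hσ e he u heq d hd, hsub,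
        ← substHom_one_right d (jqModC L), substHom_substHom, mul_one]
      exact congrArg ι (substHom_congr (mul_comm d e) rfl _)
  exact RingHom.congr_fun key f

/-- An embedding over level `N` is determined by its restriction along `β`. -/
theorem ringHom_ext_alpha_beta (N : ℕ) [NeZero N] (hl : l.Prime) {E : Type*} [Field E]
    {σ τ : laurentBaseChange L (modularFunctionFieldFull (N * l)) →+* E}
    (hα : ∀ x, σ (heckeAlphaBar L N l x) = τ (heckeAlphaBar L N l x))
    (hβ : ∀ x, σ (heckeBetaBar L N l x) = τ (heckeBetaBar L N l x)) : σ = τ := by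
  refine ringHom_ext_jGenBar (fun a => ?_) (fun d hd0 hd => ?_)
  · rw [← (heckeAlphaBar L N l).commutes]
    exact hα _
  · by_cases hld : l ∣ d
    · obtain ⟨d', rfl⟩ := hld
      haveI : NeZero d' := ⟨fun h => NeZero.ne (l * d') (by rw [h, mul_zero])⟩
      have hd' : d' ∣ N :=
        Nat.dvd_of_mul_dvd_mul_left hl.pos (by rwa [mul_comm N l] at hd)
      have e : jGenBar (N * l) (l * d') hd = heckeBetaBar L N l (jGenBar N d' hd') :=
        Subtype.ext (qExpand_qExpand d' l _).symm
      rw [e]
      exact hβ _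
    · have hdN : d ∣ N :=
        (Nat.Coprime.dvd_of_dvd_mul_right ((hl.coprime_iff_not_dvd.mpr hld).symm) hd)
      have e : jGenBar (N * l) d hd = heckeAlphaBar L N l (jGenBar N d hdN) := Subtype.ext rfl
      rw [e]
      exact hα _

/-- `N_α (β f)` in the variable `t`, `t ^ l = q`. -/
theorem qExpand_heckeNorm [IsAlgClosed L] (N : ℕ) [NeZero N] (hl : l.Prime) (hlN : ¬ l ∣ N)
    (hΦ : ModPolyExists L) (hdeg : finrankAlong L (heckeAlphaBar L N l) = l + 1) {ζ : Lˣ}
    (hζ : IsPrimitiveRoot ζ l) (f : laurentBaseChange L (modularFunctionFieldFull N)) :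
    qExpand L l ((heckeNorm L N l f : laurentBaseChange L (modularFunctionFieldFull N)) :
        LaurentSeries L) =
      qExpand L (l * l) (f : LaurentSeries L) *
        ∏ i ∈ Finset.range l, scaleHom (ζ ^ i) (f : LaurentSeries L) := by
  classical
  haveI : CharZero L := charZero_of_injective_algebraMap (algebraMap ℚ L).injective
  letI aF := algebraAlong (heckeAlphaBar L N l)
  change Module.finrank (laurentBaseChange L (modularFunctionFieldFull N))
    (laurentBaseChange L (modularFunctionFieldFull (N * l))) = l + 1 at hdeg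
  haveI : FiniteDimensional (laurentBaseChange L (modularFunctionFieldFull N))
      (laurentBaseChange L (modularFunctionFieldFull (N * l))) :=
    Module.finite_of_finrank_eq_succ hdeg
  haveI : CharZero (laurentBaseChange L (modularFunctionFieldFull N)) :=
    charZero_of_injective_algebraMap (algebraMap L _).injective
  set E := AlgebraicClosure (LaurentSeries L)
  set ι : LaurentSeries L →+* E := algebraMap (LaurentSeries L) E with hι
  letI aE : Algebra (laurentBaseChange L (modularFunctionFieldFull N)) E :=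
    ((ι.comp (qExpand L l)).comp
      (laurentBaseChange L (modularFunctionFieldFull N)).toSubfield.subtype).toAlgebra
  have hσ : ∀ (σ : laurentBaseChange L (modularFunctionFieldFull (N * l))
      →ₐ[laurentBaseChange L (modularFunctionFieldFull N)] E) x,
      σ.toRingHom (heckeAlphaBar L N l x) = ι (qExpand L l (x : LaurentSeries L)) :=
    fun σ x => σ.commutes x
  choose label hlabel using fun σ : laurentBaseChange L (modularFunctionFieldFull (N * l))
      →ₐ[laurentBaseChange L (modularFunctionFieldFull N)] E =>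
    exists_conjSubst_of_root l N hl hlN hΦ hζ ι σ.toRingHom (hσ σ)
  have hinj : Function.Injective label := fun σ τ h => by
    apply AlgHom.coe_ringHom_injective
    refine ringHom_ext_alpha_beta l N hl (fun x => ?_) (fun x => ?_)
    · exact (hσ σ x).trans (hσ τ x).symm
    · exact (hlabel σ x).trans (by rw [h]; exact (hlabel τ x).symm)
  have hbij : Function.Bijective label := (Fintype.bijective_iff_injective_and_card label).mpr
    ⟨hinj, by rw [AlgHom.card, hdeg, Fintype.card_option, Fintype.card_fin]⟩
  apply ι.injective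
  show algebraMap (laurentBaseChange L (modularFunctionFieldFull N)) E (heckeNorm L N l f) = _
  rw [heckeNorm, Algebra.norm_eq_prod_embeddings]
  refine (Fintype.prod_bijective label hbij _
      (fun c => ι (conjSubst l ζ c (f : LaurentSeries L))) (fun σ => hlabel σ f)).trans ?_
  rw [Fintype.prod_option, map_mul, map_prod]
  simp only [conjSubst]
  rw [← Fin.prod_univ_eq_prod_range (fun i => ι (scaleHom (ζ ^ i) (f : LaurentSeries L))) l]

end Conjugates

theorem exists_integral_heckeNorm (N ℓ : ℕ) [NeZero N] [NeZero ℓ] (hℓ : ℓ.Prime)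
    (hℓN : ¬ ℓ ∣ N) (A : ValuationSubring (AlgebraicClosure ℚ)) {k : Type*} [Field k]
    [ExpChar k ℓ] (π : A →+* k) (y : LaurentSeries A)
    (hy : coeffMap A.subtype y ∈ modularFunctionFieldBar N) :
    ∃ z : LaurentSeries A,
      coeffMap A.subtype z =
          ((heckeNorm (AlgebraicClosure ℚ) N ℓ ⟨coeffMap A.subtype y, hy⟩ :
            modularFunctionFieldBar N) : LaurentSeries (AlgebraicClosure ℚ)) ∧
      coeffMap π z = qExpand k ℓ (coeffMap π y) * coeffMap (frobenius k ℓ) (coeffMap π y) := by
  obtain ⟨ζ, hζ⟩ := exists_isPrimitiveRoot_units (AlgebraicClosure ℚ) ℓ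
  have hζpow : (ζ : AlgebraicClosure ℚ) ^ ℓ = 1 := by
    rw [← Units.val_pow_eq_pow_val, hζ.pow_eq_one, Units.val_one]
  have hζA : (ζ : AlgebraicClosure ℚ) ∈ A := by
    rcases A.mem_or_inv_mem (ζ : AlgebraicClosure ℚ) with h | h
    · exact h
    · have e : (ζ : AlgebraicClosure ℚ) = ((ζ : AlgebraicClosure ℚ)⁻¹) ^ (ℓ - 1) := by
        rw [inv_pow]
        exact eq_inv_of_mul_eq_one_left (by
          rw [← pow_succ', Nat.sub_add_cancel hℓ.one_le, hζpow])
      rw [e]
      exact pow_mem h _
  set z₀ : A := ⟨(ζ : AlgebraicClosure ℚ), hζA⟩ with hz₀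
  have hz₀pow : z₀ ^ ℓ = 1 := Subtype.ext (by simpa using hζpow)
  set ζA : Aˣ := Units.ofPowEqOne z₀ ℓ hz₀pow hℓ.ne_zero with hζAdef
  have hmap : Units.map (A.subtype : A →* AlgebraicClosure ℚ) ζA = ζ := Units.ext rfl
  have hπ : Units.map (π : A →* k) ζA = 1 := Units.ext (by
    show π z₀ = 1
    apply frobenius_inj k ℓ
    rw [frobenius_def, frobenius_def, one_pow, ← map_pow, hz₀pow, map_one])
  set P : LaurentSeries A :=
    qExpand A (ℓ * ℓ) y * ∏ i ∈ Finset.range ℓ, scaleHom (ζA ^ i) y with hP
  have hPmap : coeffMap A.subtype P = qExpand (AlgebraicClosure ℚ) ℓ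
      ((heckeNorm (AlgebraicClosure ℚ) N ℓ ⟨coeffMap A.subtype y, hy⟩ :
        modularFunctionFieldBar N) : LaurentSeries (AlgebraicClosure ℚ)) := by
    rw [qExpand_heckeNorm ℓ N hℓ hℓN modPolyExists_algebraicClosure
      (finrankAlong_heckeAlphaBar N ℓ hℓ hℓN) hζ, hP, map_mul, map_prod, coeffMap_qExpand]
    refine congrArg₂ (· * ·) rfl (Finset.prod_congr rfl fun i _ => ?_)
    rw [coeffMap_scaleHom, map_pow, hmap]
  obtain ⟨z, hzP, hzg⟩ := exists_qExpand_eq (f := A.subtype) Subtype.coe_injective ℓ hPmap
  refine ⟨z, hzg, qExpand_injective ℓ ?_⟩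
  rw [← coeffMap_qExpand, hzP, hP, map_mul, map_mul, map_prod, coeffMap_qExpand,
    qExpand_coeffMap_frobenius, qExpand_qExpand]
  refine congrArg₂ (· * ·) rfl ?_
  rw [Finset.prod_congr rfl (fun i _ =>
      show coeffMap π (scaleHom (ζA ^ i) y) = coeffMap π y by
        rw [coeffMap_scaleHom, map_pow, hπ, one_pow, scaleHom_one]),
    Finset.prod_const, Finset.card_range]

end FLTA.Congruence
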