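import Fermat.Prelude.Def_ModularCurve_HeckeModule
import Fermat.Agent.Congruence.GaloisCompat
import Fermat.Agent.Congruence.Correspondence
import Fermat.Agent.Congruence.NormCongr

/-!
The Eichler-Shimura congruence `red (T_ℓ x) = F (red x) + ℓ • F⁻¹ (red x)`.
-/

set_option autoImplicit false

noncomputable section

open AlgebraicCurve ModularCurve

namespace FLTA.Congruence

variable {N ℓ : ℕ} [NeZero N] [NeZero ℓ] [Fact ℓ.Prime]
variable {A : ValuationSubring (AlgebraicClosure ℚ)}
variable [CharP (IsLocalRing.ResidueField A) ℓ] [PerfectRing (IsLocalRing.ResidueField A) ℓ]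

local notation "Qb" => AlgebraicClosure ℚ
local notation "k" => IsLocalRing.ResidueField A

set_option synthInstance.maxHeartbeats 400000
set_option maxHeartbeats 2000000

theorem mapDomain_hecke_of_mem_integralPrincipalDivisors (hℓN : ¬ ℓ ∣ N)
    (hα : HeckeAlphaBarIntegral Qb N ℓ) (hβ : HeckeBetaBarIntegral Qb N ℓ)
    [HasPrincipalDivisors Qb (modularFunctionFieldBar (N * ℓ))]
    (hfin : FiniteAlong Qb (heckeAlphaBar Qb N ℓ))
    (hN : NormFormulaAlong Qb (heckeAlphaBar Qb N ℓ) hfin)
    {r : Place Qb (modularFunctionFieldBar N) → Place k (modularFunctionFieldFullC k N)}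
    (hr : IsPlaceReductionModL A N r)
    {D : Divisor Qb (modularFunctionFieldBar N)}
    (hD : D ∈ integralPrincipalDivisors A (IsLocalRing.residue A) N) :
    Finsupp.mapDomain r (heckeDivBar hα hβ D) =
      frobSemilinear k ℓ N • Finsupp.mapDomain r D +
        ℓ • ((frobSemilinear k ℓ N)⁻¹ • Finsupp.mapDomain r D) := by
  obtain ⟨y, hy, hyk, hne, hDy⟩ := hD
  set g := frobSemilinear k ℓ N with hg
  obtain ⟨z, hz, hzk⟩ := exists_integral_heckeNorm N ℓ Fact.out hℓN A
    (IsLocalRing.residue A) y hy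
  set yb : modularFunctionFieldFullC k N := ⟨coeffMap (IsLocalRing.residue A) y, hyk⟩ with hyb
  have hyb0 : yb ≠ 0 := fun h => hne (congrArg Subtype.val h)
  set zb : modularFunctionFieldFullC k N := (g⁻¹ • yb) ^ ℓ * (g • yb) with hzb
  have hzb_eq : (zb : LaurentSeries k) = coeffMap (IsLocalRing.residue A) z := by
    rw [hzb, MulMemClass.coe_mul, hg, pow_frobSemilinear_inv_smul, coe_frobSemilinear_smul, hzk]
  have ha : g⁻¹ • yb ≠ 0 := (smul_ne_zero_iff_ne _).mpr hyb0
  have hb : g • yb ≠ 0 := (smul_ne_zero_iff_ne _).mpr hyb0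
  have hzbk : coeffMap (IsLocalRing.residue A) z ∈ modularFunctionFieldFullC k N :=
    hzb_eq ▸ zb.2
  have hzbne : coeffMap (IsLocalRing.residue A) z ≠ 0 := fun h =>
    mul_ne_zero (pow_ne_zero ℓ ha) hb (Subtype.ext (hzb_eq.trans h))
  have hzmem : coeffMap A.subtype z ∈ modularFunctionFieldBar N := hz ▸ SetLike.coe_mem _
  have hf : (⟨coeffMap A.subtype y, hy⟩ : modularFunctionFieldBar N) ≠ 0 := by
    intro h
    apply hne
    have hy0 : y = 0 := by
      ext n
      have := congrArg (fun s => HahnSeries.coeff (s : modularFunctionFieldBar N).1 n) h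
      exact this
    rw [hy0, map_zero]
  have hT : ∀ P, heckeDivBar hα hβ D P =
      P.ord (⟨coeffMap A.subtype z, hzmem⟩ : modularFunctionFieldBar N) := fun P => by
    refine (correspondence_principal_apply _ _ hβ hα hfin hN hf hDy P).trans (congrArg P.ord ?_)
    exact Subtype.ext hz.symm
  have hD' : ∀ Q, Finsupp.mapDomain r D Q = Q.ord yb := hr.2 y hy hyk hne D hDy
  ext Q
  rw [hr.2 z hzmem hzbk hzbne _ hT Q,
    show (⟨coeffMap (IsLocalRing.residue A) z, hzbk⟩ : modularFunctionFieldFullC k N) = zb from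
      Subtype.ext hzb_eq.symm,
    hzb, ord_pow_mul Q ha hb, Finsupp.add_apply, Finsupp.smul_apply, nsmul_eq_mul,
    smul_divisor_apply g hD', smul_divisor_apply g⁻¹ hD', add_comm]

/-- The congruence on divisors of degree zero. -/
theorem mapDomain_hecke (hℓN : ¬ ℓ ∣ N) (hα : HeckeAlphaBarIntegral Qb N ℓ)
    (hβ : HeckeBetaBarIntegral Qb N ℓ)
    [HasPrincipalDivisors Qb (modularFunctionFieldBar (N * ℓ))]
    [HasPrincipalDivisors Qb (modularFunctionFieldBar N)]
    (hFI : FundamentalIdentityAlong Qb (heckeBetaBar Qb N ℓ) hβ)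
    (hfin : FiniteAlong Qb (heckeAlphaBar Qb N ℓ))
    (hN : NormFormulaAlong Qb (heckeAlphaBar Qb N ℓ) hfin)
    (hdeg : ∀ P : Place Qb (modularFunctionFieldBar N), P.deg = 1)
    (hR : HasEffectiveBound Qb (modularFunctionFieldBar N))
    {r : Place Qb (modularFunctionFieldBar N) → Place k (modularFunctionFieldFullC k N)}
    (hr : IsPlaceReductionModL A N r)
    (hgen : PrincipalGeneratedByIntegral A (IsLocalRing.residue A) N)
    {D : Divisor Qb (modularFunctionFieldBar N)} (hD : Divisor.degree D = 0) :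
    Finsupp.mapDomain r (heckeDivBar hα hβ D) =
      frobSemilinear k ℓ N • Finsupp.mapDomain r D +
        ℓ • ((frobSemilinear k ℓ N)⁻¹ • Finsupp.mapDomain r D) := by
  set g := frobSemilinear k ℓ N with hg
  let δ : Divisor Qb (modularFunctionFieldBar N) →+ Divisor k (modularFunctionFieldFullC k N) :=
    (Finsupp.mapDomain.addMonoidHom r).comp (heckeDivBar hα hβ) -
      ((DistribSMul.toAddMonoidHom _ g).comp (Finsupp.mapDomain.addMonoidHom r) +
        ℓ • (DistribSMul.toAddMonoidHom _ g⁻¹).comp (Finsupp.mapDomain.addMonoidHom r))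
  have hδ : ∀ E, δ E = Finsupp.mapDomain r (heckeDivBar hα hβ E) -
      (g • Finsupp.mapDomain r E + ℓ • (g⁻¹ • Finsupp.mapDomain r E)) := fun _ => rfl
  rw [← sub_eq_zero, ← hδ]
  refine divisor_eq_zero_of_bounded hdeg hR δ
    (M := (finrankAlong Qb (heckeBetaBar Qb N ℓ) : ℤ) + (1 + (ℓ : ℤ))) (fun P Q => ?_)
    (fun E hE => ?_) hD
  · classical
    have h1 : |Finsupp.mapDomain r (heckeDivBar hα hβ (Finsupp.single P 1)) Q| ≤
        (finrankAlong Qb (heckeBetaBar Qb N ℓ) : ℤ) := by
      refine (abs_mapDomain_le_degree hdeg r (correspondence_nonneg _ _ hβ hα fun v => ?_) Q).trans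
        (le_of_eq ?_)
      · rw [Finsupp.single_apply]
        split_ifs <;> norm_num
      · refine (Divisor.degree_correspondence _ _ hβ hα hFI _).trans ?_
        rw [Divisor.degree_single, hdeg P]
        simp
    rw [hδ, Finsupp.mapDomain_single, SemilinearAut.smul_single, SemilinearAut.smul_single,
      Finsupp.sub_apply, Finsupp.add_apply, Finsupp.smul_apply, nsmul_eq_mul]
    refine (abs_sub _ _).trans (add_le_add h1 ((abs_add_le _ _).trans (add_le_add ?_ ?_)))
    · rw [Finsupp.single_apply]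
      split_ifs <;> norm_num
    · rw [abs_mul, Nat.abs_cast, Finsupp.single_apply]
      split_ifs <;> norm_num
  · refine eq_zero_on_closure δ (fun E hE => ?_) (hgen hE)
    rw [hδ, mapDomain_hecke_of_mem_integralPrincipalDivisors hℓN hα hβ hfin hN hr hE, sub_self]

/-- The Eichler-Shimura congruence on the Jacobian. -/
theorem reductionModL_heckeOperatorAlong (hℓN : ¬ ℓ ∣ N) (h : ReductionInputsModL A N)
    [HasPrincipalDivisors Qb (modularFunctionFieldBar N)]
    (hdeg : ∀ P : Place Qb (modularFunctionFieldBar N), P.deg = 1)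
    (hR : HasEffectiveBound Qb (modularFunctionFieldBar N))
    (hH : HeckeInputsAlong Qb N ℓ) (x : JZero N) :
    reductionModL A N (heckeOperatorAlong Qb N ℓ x) =
      frobSemilinear k ℓ N • reductionModL A N x +
        ℓ • ((frobSemilinear k ℓ N)⁻¹ • reductionModL A N x) := by
  obtain ⟨hα, hβ, hP, hfin, hFI, hN⟩ := hH
  haveI := hP
  obtain ⟨D, rfl⟩ := Pic0.mk_surjective x
  have hTD : heckeOperatorAlong Qb N ℓ (Pic0.mk D) =
      Pic0.mk (Pic0.degZeroCorrespondence (heckeBetaBar Qb N ℓ) (heckeAlphaBar Qb N ℓ) hβ hα hFI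
        D) := by
    rw [heckeOperatorAlong_eq hα hβ hFI hfin hN]
    rfl
  rw [hTD, reductionModL_mk h, reductionModL_mk h, SemilinearAut.pic0_smul_mk,
    SemilinearAut.pic0_smul_mk]
  show Pic0.mk _ = Pic0.mk (_ + ℓ • _)
  refine congrArg Pic0.mk (Subtype.ext ?_)
  rw [AddSubgroup.coe_add, AddSubgroupClass.coe_nsmul, coe_reductionDegZeroAlong,
    SemilinearAut.coe_degZeroSMulHom,
    SemilinearAut.coe_degZeroSMulHom, coe_reductionDegZeroAlong]
  exact mapDomain_hecke hℓN hα hβ hFI hfin hN hdeg hR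
    (isPlaceReductionModL_placeReductionModL h) h.choose_spec.2 D.2

end FLTA.Congruence
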