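import Fermat.Prelude.Def_HeckeGalois_EichlerShimura

/-!
A specialization datum from a map to an abelian group satisfying an Eichler-Shimura congruence
for a single Hecke operator.
-/

set_option autoImplicit false

noncomputable section

open ModularCurve

namespace FLTA.Congruence

section Carrier

variable {M : Type} [AddCommGroup M] (F V : M →+ M) (t₀ : HeckeAlg)

/-- Additive functions on the Hecke algebra on which multiplication by `t₀` acts as `F + V`. -/
def specCarrier : AddSubgroup (HeckeAlg →+ M) where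
  carrier := {φ | ∀ s, φ (s * t₀) = F (φ s) + V (φ s)}
  zero_mem' s := by simp
  add_mem' {φ ψ} hφ hψ s := by
    simp only [AddMonoidHom.add_apply, map_add, hφ s, hψ s]
    abel
  neg_mem' {φ} hφ s := by
    simp only [AddMonoidHom.neg_apply, map_neg, hφ s]
    abel

/-- The shift action of the Hecke algebra. -/
@[implicit_reducible]
def specModule : Module HeckeAlg (specCarrier F V t₀) where
  smul t φ := ⟨(φ : HeckeAlg →+ M).comp (AddMonoidHom.mulRight t), fun s => by
    show (φ : HeckeAlg →+ M) (s * t₀ * t) =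
      F ((φ : HeckeAlg →+ M) (s * t)) + V ((φ : HeckeAlg →+ M) (s * t))
    rw [mul_right_comm]
    exact φ.2 (s * t)⟩
  one_smul φ := Subtype.ext <| AddMonoidHom.ext fun s => congrArg φ.1 (mul_one s)
  mul_smul t t' φ := Subtype.ext <| AddMonoidHom.ext fun s => congrArg φ.1 (mul_assoc s t t').symm
  smul_zero t := Subtype.ext <| AddMonoidHom.ext fun s => rfl
  smul_add t φ ψ := Subtype.ext <| AddMonoidHom.ext fun s => rfl
  add_smul t t' φ := Subtype.ext <| AddMonoidHom.ext fun s =>
    (congrArg φ.1 (mul_add s t t')).trans (map_add φ.1 _ _)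
  zero_smul φ := Subtype.ext <| AddMonoidHom.ext fun s =>
    (congrArg φ.1 (mul_zero s)).trans (map_zero φ.1)

/-- Postcomposition with `F`. -/
def specFrob (hFV : ∀ m, F (V m) = V (F m)) : specCarrier F V t₀ →+ specCarrier F V t₀ where
  toFun φ := ⟨F.comp (φ : HeckeAlg →+ M), fun s => by
    show F ((φ : HeckeAlg →+ M) (s * t₀)) =
      F (F ((φ : HeckeAlg →+ M) s)) + V (F ((φ : HeckeAlg →+ M) s))
    rw [φ.2 s, map_add, hFV]⟩
  map_zero' := Subtype.ext <| AddMonoidHom.ext fun _ => map_zero F
  map_add' _ _ := Subtype.ext <| AddMonoidHom.ext fun _ => map_add F _ _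

end Carrier

section Main

variable {K L : Type*} [Field K] [Field L] [Algebra K L]
variable {p : ℕ} {J : Type*} [AddCommGroup J] [Module HeckeAlg J]
  [DistribMulAction (L ≃ₐ[K] L) J] [SMulCommClass (L ≃ₐ[K] L) HeckeAlg J]

theorem exists_specialization {M : Type} [AddCommGroup M] (A : ValuationSubring L) (ℓ : ℕ)
    (hℓ : ℓ.Prime) (red : J →+ M) (F V : M →+ M)
    (hVF : ∀ m, V (F m) = ℓ • m) (hFV : ∀ m, F (V m) = ℓ • m)
    (hT : ∀ x, red (heckeGen ⟨ℓ, hℓ⟩ • x) = F (red x) + V (red x))
    (hI : ∀ σ ∈ A.inertiaSubgroupIn K, ∀ x, red (σ • x) = red x)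
    (hF : ∀ σ : L ≃ₐ[K] L, A.IsFrobeniusAt σ ℓ → ∀ x, red (σ • x) = F (red x))
    (hinj : ∀ x : J, (∃ n : ℕ, p ^ n • x = 0) → red x = 0 → x = 0) :
    ∃ (J' : Type) (_ : AddCommGroup J') (_ : Module HeckeAlg J') (sp : J →+ J')
      (F' : J' →+ J'),
      IsSpecialization (K := K) p J J' A ℓ sp F' ∧ SpecialFibreRelation J' ℓ hℓ F' := by
  have hcomm : ∀ m, F (V m) = V (F m) := fun m => (hFV m).trans (hVF m).symm
  let t₀ : HeckeAlg := heckeGen ⟨ℓ, hℓ⟩
  letI := specModule F V t₀
  let φ : J → HeckeAlg →+ M := fun x =>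
    { toFun := fun s => red (s • x)
      map_zero' := by rw [zero_smul, map_zero]
      map_add' := fun s s' => by rw [add_smul, map_add] }
  have hφ : ∀ x, φ x ∈ specCarrier F V t₀ := fun x s => by
    show red ((s * t₀) • x) = F (red (s • x)) + V (red (s • x))
    rw [mul_comm, mul_smul]
    exact hT (s • x)
  let sp : J →+ specCarrier F V t₀ :=
    { toFun := fun x => ⟨φ x, hφ x⟩
      map_zero' := Subtype.ext <| AddMonoidHom.ext fun s => by
        show red (s • (0 : J)) = 0
        rw [smul_zero, map_zero]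
      map_add' := fun x y => Subtype.ext <| AddMonoidHom.ext fun s => by
        show red (s • (x + y)) = red (s • x) + red (s • y)
        rw [smul_add, map_add] }
  refine ⟨specCarrier F V t₀, inferInstance, specModule F V t₀, sp, specFrob F V t₀ hcomm,
    ⟨fun T x => ?_, fun σ hσ x => ?_, fun σ hσ x => ?_, fun x hx h0 => ?_⟩, fun y => ?_⟩
  · refine Subtype.ext <| AddMonoidHom.ext fun s => ?_
    show red (s • T • x) = red ((s * T) • x)
    rw [mul_smul]
  · refine Subtype.ext <| AddMonoidHom.ext fun s => ?_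
    show red (s • σ • x) = red (s • x)
    rw [← smul_comm σ s x, hI σ hσ]
  · refine Subtype.ext <| AddMonoidHom.ext fun s => ?_
    show red (s • σ • x) = F (red (s • x))
    rw [← smul_comm σ s x, hF σ hσ]
  · refine hinj x hx ?_
    have h1 : red ((1 : HeckeAlg) • x) = 0 := congrArg (fun z => z.1 1) h0
    rwa [one_smul] at h1
  · refine Subtype.ext <| AddMonoidHom.ext fun s => ?_
    show F (F (y.1 s)) - F (y.1 (s * t₀)) + ℓ • y.1 s = 0
    rw [y.2 s, map_add, hFV]
    abel

end Main

end FLTA.Congruence
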